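import Fermat.Agent.S55.RootDefs

/-!
# S55 chapter B: definitions (functoriality of `H1`, `H2`, `Ш²`, Frobenius reciprocity)
-/

set_option autoImplicit false

namespace Fermat.Agent.S55Lib

open groupCohomology

section Maps

variable {G H : Type} [Group G] [Group H] {A B : Type} [AddCommGroup A] [AddCommGroup B]
  [DistribMulAction G A] [DistribMulAction H B]

lemma Compat.isCocycle₁ {r : H →* G} {φ : A →+ B} (h : Compat r φ) {f : G → A}
    (hf : IsCocycle₁ f) : IsCocycle₁ (fun x : H => φ (f (r x))) := fun a b => by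
  simp only [map_mul, hf (r a) (r b), map_add, h a]

lemma Compat.isCoboundary₁ {r : H →* G} {φ : A →+ B} (h : Compat r φ) {f : G → A}
    (hf : IsCoboundary₁ f) : IsCoboundary₁ (fun x : H => φ (f (r x))) := by
  obtain ⟨x, hx⟩ := hf
  exact ⟨φ x, fun a => by
    show a • φ x - φ x = φ (f (r a))
    rw [← hx (r a), map_sub, h a]⟩

lemma Compat.isCocycle₂ {r : H →* G} {φ : A →+ B} (h : Compat r φ) {f : G × G → A}
    (hf : IsCocycle₂ f) : IsCocycle₂ (fun x : H × H => φ (f (r x.1, r x.2))) := fun a b c => by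
  have := congrArg φ (hf (r a) (r b) (r c))
  simpa only [map_mul, map_add, h a] using this

lemma Compat.isCoboundary₂ {r : H →* G} {φ : A →+ B} (h : Compat r φ) {f : G × G → A}
    (hf : IsCoboundary₂ f) : IsCoboundary₂ (fun x : H × H => φ (f (r x.1, r x.2))) := by
  obtain ⟨x, hx⟩ := hf
  exact ⟨fun a => φ (x (r a)), fun a b => by
    simp only [← hx (r a) (r b), map_add, map_sub, h a, map_mul]⟩

/-- the map on 1-cocycles induced by a compatible pair `(r, φ)` -/
def Z1.cmap (r : H →* G) (φ : A →+ B) (h : Compat r φ) : Z1 G A →+ Z1 H B where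
  toFun f := ⟨fun x => φ ((f : G → A) (r x)), h.isCocycle₁ f.2⟩
  map_zero' := Subtype.ext (funext fun x => by simp)
  map_add' f f' := Subtype.ext (funext fun x => by simp)

/-- the map on 2-cocycles induced by a compatible pair `(r, φ)` -/
def Z2.cmap (r : H →* G) (φ : A →+ B) (h : Compat r φ) : Z2 G A →+ Z2 H B where
  toFun f := ⟨fun x => φ ((f : G × G → A) (r x.1, r x.2)), h.isCocycle₂ f.2⟩
  map_zero' := Subtype.ext (funext fun x => by simp)
  map_add' f f' := Subtype.ext (funext fun x => by simp)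

@[simp] lemma Z1.cmap_apply (r : H →* G) (φ : A →+ B) (h : Compat r φ) (f : Z1 G A) (x : H) :
    (Z1.cmap r φ h f : H → B) x = φ ((f : G → A) (r x)) := rfl

@[simp] lemma Z2.cmap_apply (r : H →* G) (φ : A →+ B) (h : Compat r φ) (f : Z2 G A) (x : H × H) :
    (Z2.cmap r φ h f : H × H → B) x = φ ((f : G × G → A) (r x.1, r x.2)) := rfl

/-- the map on `H¹` induced by a compatible pair `(r, φ)` -/
def H1.cmap (r : H →* G) (φ : A →+ B) (h : Compat r φ) : H1 G A →+ H1 H B :=
  QuotientAddGroup.map _ _ (Z1.cmap r φ h) (fun f hf => by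
    rw [AddSubgroup.mem_addSubgroupOf] at hf
    rw [AddSubgroup.mem_comap, AddSubgroup.mem_addSubgroupOf]
    exact h.isCoboundary₁ hf)

/-- the map on `H²` induced by a compatible pair `(r, φ)` -/
def H2.cmap (r : H →* G) (φ : A →+ B) (h : Compat r φ) : H2 G A →+ H2 H B :=
  QuotientAddGroup.map _ _ (Z2.cmap r φ h) (fun f hf => by
    rw [AddSubgroup.mem_addSubgroupOf] at hf
    rw [AddSubgroup.mem_comap, AddSubgroup.mem_addSubgroupOf]
    exact h.isCoboundary₂ hf)

@[simp] lemma H1.cmap_mk (r : H →* G) (φ : A →+ B) (h : Compat r φ) (f : Z1 G A) :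
    H1.cmap r φ h (H1.mk f) = H1.mk (Z1.cmap r φ h f) := rfl

@[simp] lemma H2.cmap_mk (r : H →* G) (φ : A →+ B) (h : Compat r φ) (f : Z2 G A) :
    H2.cmap r φ h (H2.mk f) = H2.mk (Z2.cmap r φ h f) := rfl

lemma H1.mk_surjective : Function.Surjective (H1.mk : Z1 G A → H1 G A) :=
  QuotientAddGroup.mk_surjective

lemma H2.mk_surjective : Function.Surjective (H2.mk : Z2 G A → H2 G A) :=
  QuotientAddGroup.mk_surjective

@[simp] lemma H1.mk_add (f f' : Z1 G A) : H1.mk (f + f') = H1.mk f + H1.mk f' := rfl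
@[simp] lemma H2.mk_add (f f' : Z2 G A) : H2.mk (f + f') = H2.mk f + H2.mk f' := rfl
@[simp] lemma H1.mk_zero : H1.mk (0 : Z1 G A) = 0 := rfl
@[simp] lemma H2.mk_zero : H2.mk (0 : Z2 G A) = 0 := rfl
@[simp] lemma H1.mk_neg (f : Z1 G A) : H1.mk (-f) = -H1.mk f := rfl
@[simp] lemma H2.mk_neg (f : Z2 G A) : H2.mk (-f) = -H2.mk f := rfl
@[simp] lemma H1.mk_sub (f f' : Z1 G A) : H1.mk (f - f') = H1.mk f - H1.mk f' := rfl
@[simp] lemma H2.mk_sub (f f' : Z2 G A) : H2.mk (f - f') = H2.mk f - H2.mk f' := rfl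
lemma H1.mk_nsmul (n : ℕ) (f : Z1 G A) : H1.mk (n • f) = n • H1.mk f := rfl
lemma H2.mk_nsmul (n : ℕ) (f : Z2 G A) : H2.mk (n • f) = n • H2.mk f := rfl
lemma H1.mk_zsmul (n : ℤ) (f : Z1 G A) : H1.mk (n • f) = n • H1.mk f := rfl
lemma H2.mk_zsmul (n : ℤ) (f : Z2 G A) : H2.mk (n • f) = n • H2.mk f := rfl

end Maps

section Special

variable {G : Type} [Group G] {A B : Type} [AddCommGroup A] [AddCommGroup B]
  [DistribMulAction G A] [DistribMulAction G B]

lemma compat_res (D : Subgroup G) : Compat (A := A) (B := A) D.subtype (AddMonoidHom.id A) :=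
  fun _ _ => rfl

lemma compat_of_mem_inv {φ : HomM G A B} (hφ : φ ∈ inv (⊤ : Subgroup G) (HomM G A B)) :
    Compat (MonoidHom.id G) φ.toHom := fun g a => HomM.mem_inv_top.1 hφ g a

/-- restriction `H¹(G,A) → H¹(D,A)` -/
def H1.res (D : Subgroup G) : H1 G A →+ H1 D A := H1.cmap D.subtype (AddMonoidHom.id A) (compat_res D)

/-- restriction `H²(G,A) → H²(D,A)` -/
def H2.res (D : Subgroup G) : H2 G A →+ H2 D A := H2.cmap D.subtype (AddMonoidHom.id A) (compat_res D)

/-- `φ_* : H²(G,A) → H²(G,B)` for an equivariant `φ`. -/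
def H2.push (φ : inv (⊤ : Subgroup G) (HomM G A B)) : H2 G A →+ H2 G B :=
  H2.cmap (MonoidHom.id G) (φ : HomM G A B).toHom (compat_of_mem_inv φ.2)

/-- `φ ↦ φ_*` as a homomorphism. -/
def H2.pushHom : inv (⊤ : Subgroup G) (HomM G A B) →+ (H2 G A →+ H2 G B) where
  toFun φ := H2.push φ
  map_zero' := by
    refine AddMonoidHom.ext fun x => ?_
    obtain ⟨f, rfl⟩ := H2.mk_surjective x
    rfl
  map_add' φ ψ := by
    refine AddMonoidHom.ext fun x => ?_
    obtain ⟨f, rfl⟩ := H2.mk_surjective x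
    rfl

/-- `Ш²`: classes in `H²(G,A)` whose restriction to each `D v` vanishes. -/
def Sha2 (G : Type) [Group G] (A : Type) [AddCommGroup A] [DistribMulAction G A]
    {ι : Type} (D : ι → Subgroup G) : AddSubgroup (H2 G A) :=
  ⨅ v, (H2.res (A := A) (D v)).ker

lemma mem_Sha2 {ι : Type} {D : ι → Subgroup G} {x : H2 G A} :
    x ∈ Sha2 G A D ↔ ∀ v, H2.res (D v) x = 0 := by
  simp [Sha2, AddSubgroup.mem_iInf, AddMonoidHom.mem_ker]

lemma mem_Sha1 {ι : Type} {D : ι → Subgroup G} {x : H1 G A} :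
    x ∈ Sha1 G A D ↔ ∀ v, H1.res (D v) x = 0 := by
  constructor
  · rintro ⟨f, rfl, hf⟩ v
    exact H1.mk_eq_zero.2 (hf v)
  · intro h
    obtain ⟨f, rfl⟩ := H1.mk_surjective x
    exact ⟨f, rfl, fun v => H1.mk_eq_zero.1 (h v)⟩

end Special

section Frobenius

variable {G : Type} [Group G] (D : Subgroup G) {X K : Type} [AddCommGroup X] [AddCommGroup K]
  [DistribMulAction G X] [DistribMulAction D K]

/-- evaluation at `1`: `Coind_D^G K → K` -/
def Coind.ev : Coind D.subtype K →+ K where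
  toFun F := (F : G → K) 1
  map_zero' := rfl
  map_add' _ _ := rfl

lemma Coind.compat_ev : Compat (A := Coind D.subtype K) (B := K) D.subtype (Coind.ev D) :=
  fun d F => by
    show (F : G → K) (1 * (d : G)) = d • (F : G → K) 1
    have := F.2 d 1
    simpa using this

/-- Shapiro's map `H²(G, Coind_D^G K) → H²(D,K)` -/
def H2.sh : H2 G (Coind D.subtype K) →+ H2 D K :=
  H2.cmap D.subtype (Coind.ev D) (Coind.compat_ev D)

/-- Frobenius reciprocity: the `G`-map `X → Coind_D^G K` attached to a `D`-map `X → K`. -/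
def frob (φ : inv (⊤ : Subgroup D) (HomM D X K)) :
    inv (⊤ : Subgroup G) (HomM G X (Coind D.subtype K)) :=
  ⟨HomM.of
    { toFun := fun x => ⟨fun g => (φ : HomM D X K) (g • x), fun d g => by
        have := HomM.mem_inv_top.1 φ.2 d (g • x)
        rw [← this]
        simp [mul_smul]
        rfl⟩
      map_zero' := Subtype.ext (funext fun g => by simp)
      map_add' := fun x y => Subtype.ext (funext fun g => by simp [smul_add]) },
   HomM.mem_inv_top.2 fun γ x => Subtype.ext (funext fun g => by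
     show (φ : HomM D X K) (g • γ • x) = (φ : HomM D X K) ((g * γ) • x)
     rw [mul_smul])⟩

@[simp] lemma frob_apply (φ : inv (⊤ : Subgroup D) (HomM D X K)) (x : X) (g : G) :
    (((frob D φ : HomM G X (Coind D.subtype K)) x : Coind D.subtype K) : G → K) g =
      (φ : HomM D X K) (g • x) := rfl

end Frobenius

end Fermat.Agent.S55Lib
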