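import Fermat.Agent.S55.B.Defs

/-! # S55 chapter B, (S0) + (S1): Shapiro's map in degree 2 is surjective -/

set_option autoImplicit false

namespace Fermat.Agent.S55Lib

open groupCohomology

section S

variable {G : Type} [Group G]

/-- (S0) -/
theorem exists_tau (D : Subgroup G) :
    ∃ τ : G → D, (∀ (d : D) (g : G), τ (d * g) = d * τ g) ∧ τ 1 = 1 := by
  have hmem : ∀ g : G, g * ((g⁻¹ : G) : G ⧸ D).out ∈ D := by
    intro g
    obtain ⟨h, hh⟩ := QuotientGroup.mk_out_eq_mul D g⁻¹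
    rw [hh, mul_inv_cancel_left]
    exact h.2
  let τ₀ : G → D := fun g => ⟨g * ((g⁻¹ : G) : G ⧸ D).out, hmem g⟩
  have h₀ : ∀ (d : D) (g : G), τ₀ (d * g) = d * τ₀ g := by
    intro d g
    apply Subtype.ext
    have e : (((d * g : G)⁻¹ : G) : G ⧸ D) = ((g⁻¹ : G) : G ⧸ D) := by
      rw [QuotientGroup.eq]
      simp
    show (d : G) * g * (((d * g : G)⁻¹ : G) : G ⧸ D).out = d * (g * ((g⁻¹ : G) : G ⧸ D).out)
    rw [e, mul_assoc]
  refine ⟨fun g => τ₀ g * (τ₀ 1)⁻¹, fun d g => ?_, mul_inv_cancel _⟩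
  show τ₀ (d * g) * (τ₀ 1)⁻¹ = d * (τ₀ g * (τ₀ 1)⁻¹)
  rw [h₀, mul_assoc]

/-- (S1) `f(g,h)(x) = τ x • k((τ x)⁻¹ τ(xg), τ(xg)⁻¹ τ(xgh))` -/
theorem sh_surjective (D : Subgroup G) (K : Type) [AddCommGroup K] [DistribMulAction D K] :
    Function.Surjective (H2.sh D : H2 G (Coind D.subtype K) →+ H2 D K) := by
  obtain ⟨τ, hτ, hτ1⟩ := exists_tau D
  intro y
  obtain ⟨k, rfl⟩ := H2.mk_surjective y
  have hτd : ∀ d : D, τ (d : G) = d := by
    intro d
    have := hτ d 1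
    rwa [mul_one, hτ1, mul_one] at this
  let f : G × G → Coind D.subtype K := fun gh =>
    ⟨fun x => τ x • (k : D × D → K) ((τ x)⁻¹ * τ (x * gh.1), (τ (x * gh.1))⁻¹ * τ (x * gh.1 * gh.2)),
      fun d x => by
        show τ (d * x) • (k : D × D → K) ((τ (d * x))⁻¹ * τ (d * x * gh.1),
          (τ (d * x * gh.1))⁻¹ * τ (d * x * gh.1 * gh.2)) = _
        have e1 : (d : G) * x * gh.1 = d * (x * gh.1) := by group
        have e2 : (d : G) * x * gh.1 * gh.2 = d * (x * gh.1 * gh.2) := by group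
        rw [e2, e1, hτ, hτ, hτ, mul_smul]
        show d • τ x • (k : D × D → K) _ = d • τ x • (k : D × D → K) _
        congr 4 <;> group⟩
  have hf : IsCocycle₂ f := by
    intro g h j
    apply Subtype.ext
    funext x
    have hk := k.2 ((τ x)⁻¹ * τ (x * g)) ((τ (x * g))⁻¹ * τ (x * g * h))
      ((τ (x * g * h))⁻¹ * τ (x * g * h * j))
    have hk' := congrArg (fun a => τ x • a) hk
    simp only [smul_add, smul_smul] at hk'
    have a1 : (τ x)⁻¹ * τ (x * g) * ((τ (x * g))⁻¹ * τ (x * g * h)) = (τ x)⁻¹ * τ (x * g * h) := by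
      group
    have a2 : (τ (x * g))⁻¹ * τ (x * g * h) * ((τ (x * g * h))⁻¹ * τ (x * g * h * j))
        = (τ (x * g))⁻¹ * τ (x * g * h * j) := by group
    have a3 : τ x * ((τ x)⁻¹ * τ (x * g)) = τ (x * g) := by group
    rw [a1, a2, a3] at hk'
    show τ x • (k : D × D → K) ((τ x)⁻¹ * τ (x * (g * h)), (τ (x * (g * h)))⁻¹ * τ (x * (g * h) * j))
      + τ x • (k : D × D → K) ((τ x)⁻¹ * τ (x * g), (τ (x * g))⁻¹ * τ (x * g * h))
      = τ (x * g) • (k : D × D → K) ((τ (x * g))⁻¹ * τ (x * g * h),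
          (τ (x * g * h))⁻¹ * τ (x * g * h * j))
      + τ x • (k : D × D → K) ((τ x)⁻¹ * τ (x * g), (τ (x * g))⁻¹ * τ (x * g * (h * j)))
    rw [← mul_assoc x g h, ← mul_assoc (x * g) h j]
    exact hk'
  refine ⟨H2.mk ⟨f, hf⟩, ?_⟩
  show H2.mk _ = H2.mk k
  congr 1
  apply Subtype.ext
  funext dd
  show τ 1 • (k : D × D → K) ((τ 1)⁻¹ * τ (1 * (dd.1 : G)),
    (τ (1 * (dd.1 : G)))⁻¹ * τ (1 * (dd.1 : G) * (dd.2 : G))) = (k : D × D → K) dd
  have e : (1 : G) * (dd.1 : G) * (dd.2 : G) = ((dd.1 * dd.2 : D) : G) := by simp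
  rw [e, one_mul, hτd, hτd, hτ1, one_smul]
  have e' : ((1 : D)⁻¹ * dd.1, dd.1⁻¹ * (dd.1 * dd.2)) = dd := by
    refine Prod.ext ?_ ?_
    · simp
    · simp
  rw [e']

end S

end Fermat.Agent.S55Lib
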