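import Fermat.Agent.S55.B.Defs
import Fermat.Agent.S55.B.ShapiroSurj

/-! # S55 chapter B, (S2): Shapiro's map in degree 2 is injective (prism homotopy) -/

set_option autoImplicit false

namespace Fermat.Agent.S55Lib

open groupCohomology

section S

variable {G : Type} [Group G]

/-- the cochain-level statement -/
theorem S2_isCoboundary₂ (D : Subgroup G) (K : Type) [AddCommGroup K] [DistribMulAction D K]
    (f : G × G → Coind D.subtype K) (hf : IsCocycle₂ f)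
    (hsh : IsCoboundary₂ (fun dd : D × D => ((f ((dd.1 : G), (dd.2 : G)) : Coind D.subtype K) : G → K) 1)) :
    IsCoboundary₂ f := by
  obtain ⟨τ, hτ, hτ1⟩ := exists_tau D
  obtain ⟨z, hz⟩ := hsh
  -- homogeneous form
  let φ : G → G → G → K := fun g0 g1 g2 => ((f (g0⁻¹ * g1, g1⁻¹ * g2) : Coind D.subtype K) : G → K) g0
  have hφd : ∀ (d : D) (g0 g1 g2 : G), φ (d * g0) (d * g1) (d * g2) = d • φ g0 g1 g2 := by
    intro d g0 g1 g2
    show ((f (((d : G) * g0)⁻¹ * (d * g1), ((d : G) * g1)⁻¹ * (d * g2)) : Coind D.subtype K) : G → K)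
      (d * g0) = _
    have e1 : ((d : G) * g0)⁻¹ * (d * g1) = g0⁻¹ * g1 := by group
    have e2 : ((d : G) * g1)⁻¹ * (d * g2) = g1⁻¹ * g2 := by group
    rw [e1, e2]
    exact (f (g0⁻¹ * g1, g1⁻¹ * g2)).2 d g0
  have hR : ∀ a b c e : G, φ a c e + φ a b c = φ b c e + φ a b e := by
    intro a b c e
    have h := congrArg (fun F : Coind D.subtype K => (F : G → K) a)
      (hf (a⁻¹ * b) (b⁻¹ * c) (c⁻¹ * e))
    have e1 : a⁻¹ * b * (b⁻¹ * c) = a⁻¹ * c := by group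
    have e2 : b⁻¹ * c * (c⁻¹ * e) = b⁻¹ * e := by group
    rw [e1, e2] at h
    have e3 : a * (a⁻¹ * b) = b := by group
    have h' : ((f (a⁻¹ * c, c⁻¹ * e) : Coind D.subtype K) : G → K) a
        + ((f (a⁻¹ * b, b⁻¹ * c) : Coind D.subtype K) : G → K) a
        = ((f (b⁻¹ * c, c⁻¹ * e) : Coind D.subtype K) : G → K) (a * (a⁻¹ * b))
        + ((f (a⁻¹ * b, b⁻¹ * e) : Coind D.subtype K) : G → K) a := h
    rw [e3] at h'
    exact h'
  let η : G → G → K := fun g0 g1 => φ (τ g0) g0 g1 - φ (τ g0) (τ g1) g1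
  let κ : D → D → K := fun d0 d1 => d0 • z (d0⁻¹ * d1)
  let θ : G → G → K := fun g0 g1 => η g0 g1 + κ (τ g0) (τ g1)
  have hκ : ∀ d0 d1 d2 : D, φ d0 d1 d2 = κ d1 d2 - κ d0 d2 + κ d0 d1 := by
    intro d0 d1 d2
    have h1 : φ d0 d1 d2 = d0 • φ 1 ((d0⁻¹ * d1 : D) : G) ((d0⁻¹ * d2 : D) : G) := by
      rw [← hφd]
      congr 1 <;> simp
    have h2 : φ 1 ((d0⁻¹ * d1 : D) : G) ((d0⁻¹ * d2 : D) : G)
        = ((f (((d0⁻¹ * d1 : D) : G), ((d1⁻¹ * d2 : D) : G)) : Coind D.subtype K) : G → K) 1 := by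
      show ((f ((1 : G)⁻¹ * ((d0⁻¹ * d1 : D) : G), ((d0⁻¹ * d1 : D) : G)⁻¹ * ((d0⁻¹ * d2 : D) : G))
        : Coind D.subtype K) : G → K) 1 = _
      have b1 : (1 : G)⁻¹ * ((d0⁻¹ * d1 : D) : G) = ((d0⁻¹ * d1 : D) : G) := by simp
      have b2 : ((d0⁻¹ * d1 : D) : G)⁻¹ * ((d0⁻¹ * d2 : D) : G) = ((d1⁻¹ * d2 : D) : G) := by
        simp only [Subgroup.coe_mul, Subgroup.coe_inv]; group
      rw [b1, b2]
    have hz' : (d0⁻¹ * d1) • z (d1⁻¹ * d2) - z (d0⁻¹ * d1 * (d1⁻¹ * d2)) + z (d0⁻¹ * d1)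
        = ((f (((d0⁻¹ * d1 : D) : G), ((d1⁻¹ * d2 : D) : G)) : Coind D.subtype K) : G → K) 1 :=
      hz (d0⁻¹ * d1) (d1⁻¹ * d2)
    rw [h1, h2, ← hz']
    simp only [smul_add, smul_sub, smul_smul, κ]
    have a1 : d0 * (d0⁻¹ * d1) = d1 := by group
    have a2 : d0⁻¹ * d1 * (d1⁻¹ * d2) = d0⁻¹ * d2 := by group
    rw [a1, a2]
  have hθ : ∀ g0 g1 g2 : G, φ g0 g1 g2 = θ g1 g2 - θ g0 g2 + θ g0 g1 := by
    intro g0 g1 g2
    have r1 := hR (τ g0) g0 g1 g2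
    have r2 := hR (τ g0) (τ g1) g1 g2
    have r3 := hR (τ g0) (τ g1) (τ g2) g2
    have r4 := hκ (τ g0) (τ g1) (τ g2)
    simp only [θ, η]
    linear_combination (norm := abel) r2 - r1 - r3 + r4
  have hθd : ∀ (d : D) (g0 g1 : G), θ (d * g0) (d * g1) = d • θ g0 g1 := by
    intro d g0 g1
    simp only [θ, η, κ, hτ, Subgroup.coe_mul, hφd, smul_add, smul_sub, smul_smul]
    congr 3
    group
  refine ⟨fun g => ⟨fun x => θ x (x * g), fun d x => ?_⟩, fun g h => ?_⟩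
  · show θ (d * x) (d * x * g) = d • θ x (x * g)
    rw [mul_assoc, hθd]
  · apply Subtype.ext
    funext x
    show θ (x * g) (x * g * h) - θ x (x * (g * h)) + θ x (x * g) = ((f (g, h) : Coind D.subtype K) : G → K) x
    rw [← mul_assoc, ← hθ]
    show ((f (x⁻¹ * (x * g), (x * g)⁻¹ * (x * g * h)) : Coind D.subtype K) : G → K) x = _
    have c1 : x⁻¹ * (x * g) = g := by group
    have c2 : (x * g)⁻¹ * (x * g * h) = h := by group
    rw [c1, c2]

/-- (S2) prism homotopy -/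
theorem sh_injective (D : Subgroup G) (K : Type) [AddCommGroup K] [DistribMulAction D K] :
    Function.Injective (H2.sh D : H2 G (Coind D.subtype K) →+ H2 D K) := by
  rw [injective_iff_map_eq_zero]
  intro x hx
  obtain ⟨f, rfl⟩ := H2.mk_surjective x
  rw [H2.mk_eq_zero]
  have h1 : H2.sh D (H2.mk f) = H2.mk (Z2.cmap D.subtype (Coind.ev D) (Coind.compat_ev D) f) := rfl
  rw [h1, H2.mk_eq_zero] at hx
  exact S2_isCoboundary₂ D K f f.2 hx

end S

end Fermat.Agent.S55Lib
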