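import Fermat.Agent.S55.B.Defs
import Fermat.Agent.S55.B.ShapiroInj

/-! # S55 chapter B, (S3) + (S4): restriction to a subgroup of finite index; Frobenius reciprocity -/

set_option autoImplicit false

namespace Fermat.Agent.S55Lib

open groupCohomology

section S

variable {G : Type} [Group G]

/-- `ι : A → Coind_P^G A`, `a ↦ (g ↦ g a)` -/
def S3_iota (P : Subgroup G) (A : Type) [AddCommGroup A] [DistribMulAction G A] :
    A →+ Coind P.subtype A where
  toFun a := ⟨fun g => g • a, fun h g => by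
    show (P.subtype h * g) • a = h • g • a
    rw [mul_smul]; rfl⟩
  map_zero' := Subtype.ext (funext fun g => smul_zero g)
  map_add' a b := Subtype.ext (funext fun g => smul_add g a b)

theorem S3_iota_smul (P : Subgroup G) (A : Type) [AddCommGroup A] [DistribMulAction G A]
    (γ : G) (a : A) : S3_iota P A (γ • a) = γ • S3_iota P A a := by
  apply Subtype.ext
  funext g
  show g • γ • a = (g * γ) • a
  rw [mul_smul]

/-- `g P ↦ g F(g⁻¹)` -/
def S3_Phi (P : Subgroup G) {A : Type} [AddCommGroup A] [DistribMulAction G A]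
    (F : Coind P.subtype A) (q : G ⧸ P) : A :=
  Quotient.liftOn' q (fun g => g • (F : G → A) g⁻¹) (fun a b hab => by
    have h1 : a⁻¹ * b ∈ P := QuotientGroup.leftRel_apply.1 hab
    have h2 := F.2 ⟨a⁻¹ * b, h1⟩ b⁻¹
    have e : P.subtype ⟨a⁻¹ * b, h1⟩ * b⁻¹ = a⁻¹ := by
      show a⁻¹ * b * b⁻¹ = a⁻¹
      group
    rw [e] at h2
    show a • (F : G → A) a⁻¹ = b • (F : G → A) b⁻¹
    rw [h2]
    show a • (a⁻¹ * b) • (F : G → A) b⁻¹ = _
    rw [smul_smul]
    congr 1
    group)

theorem S3_Phi_mk (P : Subgroup G) {A : Type} [AddCommGroup A] [DistribMulAction G A]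
    (F : Coind P.subtype A) (g : G) : S3_Phi P F (g : G ⧸ P) = g • (F : G → A) g⁻¹ := rfl

/-- `ν : Coind_P^G A → A`, `F ↦ ∑_{gP} g F(g⁻¹)` -/
noncomputable def S3_nu (P : Subgroup G) [P.FiniteIndex] (A : Type) [AddCommGroup A]
    [DistribMulAction G A] : Coind P.subtype A →+ A :=
  haveI : Fintype (G ⧸ P) := Fintype.ofFinite _
  { toFun := fun F => ∑ q : G ⧸ P, S3_Phi P F q
    map_zero' := by
      apply Finset.sum_eq_zero
      intro q _
      induction q using QuotientGroup.induction_on with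
      | H g => rw [S3_Phi_mk]; exact smul_zero g
    map_add' := fun F F' => by
      rw [← Finset.sum_add_distrib]
      apply Finset.sum_congr rfl
      intro q _
      induction q using QuotientGroup.induction_on with
      | H g => rw [S3_Phi_mk, S3_Phi_mk, S3_Phi_mk]; exact smul_add g _ _ }

theorem S3_nu_apply (P : Subgroup G) [P.FiniteIndex] (A : Type) [AddCommGroup A]
    [DistribMulAction G A] [Fintype (G ⧸ P)] (F : Coind P.subtype A) :
    S3_nu P A F = ∑ q : G ⧸ P, S3_Phi P F q := by
  unfold S3_nu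
  simp only [AddMonoidHom.coe_mk, ZeroHom.coe_mk]
  congr!

theorem S3_nu_smul (P : Subgroup G) [P.FiniteIndex] (A : Type) [AddCommGroup A]
    [DistribMulAction G A] (γ : G) (F : Coind P.subtype A) :
    S3_nu P A (γ • F) = γ • S3_nu P A F := by
  haveI : Fintype (G ⧸ P) := Fintype.ofFinite _
  rw [S3_nu_apply, S3_nu_apply, Finset.smul_sum]
  refine Fintype.sum_equiv (MulAction.toPerm γ⁻¹) _ _ ?_
  intro q
  induction q using QuotientGroup.induction_on with
  | H g =>
    show S3_Phi P (γ • F) (g : G ⧸ P) = γ • S3_Phi P F ((γ⁻¹ * g : G) : G ⧸ P)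
    rw [S3_Phi_mk, S3_Phi_mk, Coind.smul_apply, smul_smul]
    congr 2 <;> group

theorem S3_nu_iota (P : Subgroup G) [P.FiniteIndex] (A : Type) [AddCommGroup A]
    [DistribMulAction G A] (a : A) : S3_nu P A (S3_iota P A a) = P.index • a := by
  haveI : Fintype (G ⧸ P) := Fintype.ofFinite _
  rw [S3_nu_apply]
  have : ∀ q : G ⧸ P, S3_Phi P (S3_iota P A a) q = a := by
    intro q
    induction q using QuotientGroup.induction_on with
    | H g =>
      rw [S3_Phi_mk]
      show g • g⁻¹ • a = a
      rw [smul_smul, mul_inv_cancel, one_smul]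
  simp only [this, Finset.sum_const, Finset.card_univ]
  rw [Subgroup.index, Nat.card_eq_fintype_card]

/-- (S3) `A → Coind_P^G A → A` is multiplication by the index -/
theorem res_index_inj (P : Subgroup G) [P.FiniteIndex] {A : Type} [AddCommGroup A]
    [DistribMulAction G A] (x : H2 G A) (hx : H2.res P x = 0) : P.index • x = 0 := by
  obtain ⟨f, rfl⟩ := H2.mk_surjective x
  have h1 : H2.res P (H2.mk f) = H2.mk (Z2.cmap P.subtype (AddMonoidHom.id A) (compat_res P) f) :=
    rfl
  rw [h1, H2.mk_eq_zero] at hx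
  rw [← H2.mk_nsmul, H2.mk_eq_zero]
  have hF : IsCocycle₂ (fun gh : G × G => S3_iota P A ((f : G × G → A) gh)) := by
    intro g h j
    have := congrArg (S3_iota P A) (f.2 g h j)
    rw [map_add, map_add, S3_iota_smul] at this
    exact this
  obtain ⟨Y, hY⟩ := S2_isCoboundary₂ P A _ hF (by
    obtain ⟨z, hz⟩ := hx
    refine ⟨z, fun d d' => ?_⟩
    rw [hz d d']
    show (f : G × G → A) ((d : G), (d' : G)) = (1 : G) • (f : G × G → A) ((d : G), (d' : G))
    rw [one_smul])
  refine ⟨fun g => S3_nu P A (Y g), fun g h => ?_⟩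
  have := congrArg (S3_nu P A) (hY g h)
  rw [map_add, map_sub, S3_nu_smul, S3_nu_iota] at this
  exact this

/-- (S4) -/
theorem sh_push_frob (D : Subgroup G) {X K : Type} [AddCommGroup X] [AddCommGroup K]
    [DistribMulAction G X] [DistribMulAction D K] (φ : inv (⊤ : Subgroup D) (HomM D X K))
    (x : H2 G X) : H2.sh D (H2.push (frob D φ) x) = H2.push φ (H2.res D x) := by
  obtain ⟨f, rfl⟩ := H2.mk_surjective x
  show H2.mk _ = H2.mk _
  congr 1
  apply Subtype.ext
  funext dd
  show (φ : HomM D X K) ((1 : G) • (f : G × G → X) ((dd.1 : G), (dd.2 : G))) =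
    (φ : HomM D X K) ((f : G × G → X) ((dd.1 : G), (dd.2 : G)))
  rw [one_smul]

end S

end Fermat.Agent.S55Lib
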