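import Fermat.Agent.S55.B.Defs

/-! # S55 chapter B, block (N): norms induce zero on cohomology -/

set_option autoImplicit false

namespace Fermat.Agent.S55Lib

open groupCohomology

section N

variable {G : Type} [Group G] [Finite G]

/-- (N0) -/
theorem normG_apply [Fintype G] {A : Type} [AddCommGroup A] [DistribMulAction G A] (a : A) :
    normG G A a = ∑ g : G, g • a := by
  unfold normG
  rw [AddMonoidHom.finsetSum_apply]
  exact Finset.sum_congr (by ext; simp) (fun _ _ => rfl)

/-- (N0') -/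
theorem normG_mem_inv {A : Type} [AddCommGroup A] [DistribMulAction G A] (a : A) :
    normG G A a ∈ inv (⊤ : Subgroup G) A := by
  have := Fintype.ofFinite G
  intro n _
  rw [normG_apply, Finset.smul_sum]
  exact Fintype.sum_equiv (Equiv.mulLeft n) _ _ (fun g => by simp [mul_smul])

/-- (N0'') -/
theorem normG_of_mem_inv {A : Type} [AddCommGroup A] [DistribMulAction G A] {a : A}
    (ha : a ∈ inv (⊤ : Subgroup G) A) : normG G A a = Nat.card G • a := by
  have := Fintype.ofFinite G
  rw [normG_apply, Finset.sum_congr rfl (fun g _ => ha g trivial)]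
  simp [Nat.card_eq_fintype_card]

/-- (N0''') -/
theorem normG_HomM_apply [Fintype G] {X C : Type} [AddCommGroup X] [AddCommGroup C]
    [DistribMulAction G X] [DistribMulAction G C] (ψ : HomM G X C) (x : X) :
    normG G (HomM G X C) ψ x = ∑ g : G, g • ψ (g⁻¹ • x) := by
  rw [normG_apply]
  let ev : HomM G X C →+ C :=
    { toFun := fun φ => φ x, map_zero' := rfl, map_add' := fun _ _ => rfl }
  have : ev (∑ g : G, g • ψ) = ∑ g : G, ev (g • ψ) := map_sum ev _ _
  exact this

/-- (N1) `t = ∑ g, g • ψ (f g⁻¹)` -/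
theorem norm_isCoboundary₁ {X C : Type} [AddCommGroup X] [AddCommGroup C]
    [DistribMulAction G X] [DistribMulAction G C] (ψ : HomM G X C) {f : G → X}
    (hf : IsCocycle₁ f) : IsCoboundary₁ (fun x => normG G (HomM G X C) ψ (f x)) := by
  have := Fintype.ofFinite G
  refine ⟨∑ g : G, g • ψ (f g⁻¹), fun a => ?_⟩
  show _ = normG G (HomM G X C) ψ (f a)
  rw [normG_HomM_apply, Finset.smul_sum, ← Finset.sum_sub_distrib]
  have h1 : ∑ g : G, a • g • ψ (f g⁻¹) = ∑ g : G, g • ψ (f (g⁻¹ * a)) :=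
    Fintype.sum_equiv (Equiv.mulLeft a) _ _ (fun g => by simp [mul_smul])
  rw [Finset.sum_sub_distrib, h1, ← Finset.sum_sub_distrib]
  refine Finset.sum_congr rfl fun g _ => ?_
  rw [hf g⁻¹ a, map_add, smul_add]
  abel

/-- (N2) `t a = ∑ g, g • ψ (f (g⁻¹, a))` -/
theorem norm_isCoboundary₂ {X C : Type} [AddCommGroup X] [AddCommGroup C]
    [DistribMulAction G X] [DistribMulAction G C] (ψ : HomM G X C) {f : G × G → X}
    (hf : IsCocycle₂ f) : IsCoboundary₂ (fun x => normG G (HomM G X C) ψ (f x)) := by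
  have := Fintype.ofFinite G
  refine ⟨fun a => ∑ g : G, g • ψ (f (g⁻¹, a)), fun a b => ?_⟩
  show _ = normG G (HomM G X C) ψ (f (a, b))
  rw [normG_HomM_apply, Finset.smul_sum]
  have h1 : ∑ g : G, a • g • ψ (f (g⁻¹, b)) = ∑ g : G, g • ψ (f (g⁻¹ * a, b)) :=
    Fintype.sum_equiv (Equiv.mulLeft a) _ _ (fun g => by simp [mul_smul])
  rw [h1, ← Finset.sum_sub_distrib, ← Finset.sum_add_distrib]
  refine Finset.sum_congr rfl fun g _ => ?_
  have h2 := hf g⁻¹ a b
  have h3 : g⁻¹ • f (a, b) = f (g⁻¹ * a, b) + f (g⁻¹, a) - f (g⁻¹, a * b) := by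
    rw [h2]; abel
  rw [h3, map_sub, map_add, smul_sub, smul_add]
  abel

omit [Finite G] in
lemma N_id_mem {A : Type} [AddCommGroup A] [DistribMulAction G A] :
    (HomM.of (AddMonoidHom.id A) : HomM G A A) ∈ inv (⊤ : Subgroup G) (HomM G A A) :=
  HomM.mem_inv_top.2 fun _ _ => rfl

/-- (N3) -/
theorem card_smul_isCoboundary₁ {A : Type} [AddCommGroup A] [DistribMulAction G A] {f : G → A}
    (hf : IsCocycle₁ f) : IsCoboundary₁ (Nat.card G • f) := by
  have h := norm_isCoboundary₁ (HomM.of (AddMonoidHom.id A) : HomM G A A) hf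
  rw [normG_of_mem_inv N_id_mem] at h
  exact h

/-- (N4) -/
theorem card_smul_isCoboundary₂ {A : Type} [AddCommGroup A] [DistribMulAction G A]
    {f : G × G → A} (hf : IsCocycle₂ f) : IsCoboundary₂ (Nat.card G • f) := by
  have h := norm_isCoboundary₂ (HomM.of (AddMonoidHom.id A) : HomM G A A) hf
  rw [normG_of_mem_inv N_id_mem] at h
  exact h

end N

end Fermat.Agent.S55Lib
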