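import Fermat.Agent.S55.B.Defs
import Fermat.Agent.S55.B.Norm
import Fermat.Agent.S55.B.ShapiroRes

/-! # S55 chapter B, (Q): `H²(G,C)[p]` is cyclic of order `p` for a class module -/

set_option autoImplicit false

namespace Fermat.Agent.S55Lib

open groupCohomology

section Q

variable {G : Type} [Group G] [Finite G]

theorem Q_card_smul {H : Type} [Group H] [Finite H] {A : Type} [AddCommGroup A]
    [DistribMulAction H A] (x : H2 H A) : Nat.card H • x = 0 := by
  obtain ⟨f, rfl⟩ := H2.mk_surjective x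
  rw [← H2.mk_nsmul, H2.mk_eq_zero]
  exact card_smul_isCoboundary₂ f.2

/-- (Q1) -/
theorem classModule_ptorsion (p : ℕ) [Fact p.Prime] {C : Type} [AddCommGroup C]
    [DistribMulAction G C] (u : G × G → C) (hC : IsClassModule p G C u) (hp : p ∣ Nat.card G) :
    ∃ q0 : H2 G C, q0 ≠ 0 ∧ p • q0 = 0 ∧ ∀ x : H2 G C, p • x = 0 → ∃ k : ℕ, x = k • q0 := by
  have hpp : p.Prime := Fact.out
  obtain ⟨P⟩ : Nonempty (Sylow p G) := inferInstance
  have hPp : IsPGroup p (P : Subgroup G) := P.isPGroup'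
  have hm : ¬ p ∣ (P : Subgroup G).index := P.not_dvd_index
  have hcard : Nat.card (P : Subgroup G) * (P : Subgroup G).index = Nat.card G :=
    Subgroup.card_mul_index _
  set m := (P : Subgroup G).index with hmdef
  have hpP : p ∣ Nat.card (P : Subgroup G) := by
    rw [← hcard] at hp
    exact (hpp.dvd_mul.mp hp).resolve_right hm
  obtain ⟨n', hn'⟩ := hpP
  have hn'0 : n' ≠ 0 := by
    rintro rfl
    rw [mul_zero] at hn'
    exact Nat.card_pos.ne' hn'
  set U : H2 G C := H2.mk ⟨u, hC.cocycle⟩ with hU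
  set rU : H2 (P : Subgroup G) C := H2.res (P : Subgroup G) U with hrU
  -- translation of the axioms
  have hgen : ∀ X : H2 (P : Subgroup G) C, ∃ k : ℤ, X = k • rU := by
    intro X
    obtain ⟨f, rfl⟩ := H2.mk_surjective X
    obtain ⟨k, hk⟩ := hC.h2gen _ hPp f f.2
    refine ⟨k, ?_⟩
    rw [← sub_eq_zero]
    have e : H2.mk f - k • rU = H2.mk (f - k • Z2.cmap (P : Subgroup G).subtype (AddMonoidHom.id C)
        (compat_res _) ⟨u, hC.cocycle⟩) := rfl
    rw [e, H2.mk_eq_zero]
    exact hk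
  have hord : ∀ k : ℤ, k • rU = 0 → (Nat.card (P : Subgroup G) : ℤ) ∣ k := by
    intro k hk
    apply hC.h2ord _ hPp k
    have e : k • rU = H2.mk (k • Z2.cmap (P : Subgroup G).subtype (AddMonoidHom.id C)
        (compat_res _) ⟨u, hC.cocycle⟩) := rfl
    rw [e, H2.mk_eq_zero] at hk
    exact hk
  have hq0p : p • ((n' * m) • U) = 0 := by
    rw [smul_smul, ← mul_assoc, ← hn', hcard]
    exact Q_card_smul U
  refine ⟨(n' * m) • U, ?_, hq0p, ?_⟩
  · intro h0
    have h1 := congrArg (H2.res (P : Subgroup G)) h0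
    rw [map_nsmul, map_zero, ← natCast_zsmul] at h1
    have h2 := hord _ h1
    rw [hn'] at h2
    have h3 : p * n' ∣ n' * m := by exact_mod_cast h2
    rw [mul_comm p n'] at h3
    exact hm ((Nat.mul_dvd_mul_iff_left (Nat.pos_of_ne_zero hn'0)).mp h3)
  · intro x hx
    obtain ⟨k, hk⟩ := hgen (H2.res (P : Subgroup G) x)
    have h1 : ((p : ℤ) * k) • rU = 0 := by
      rw [mul_smul, ← hk, natCast_zsmul, ← map_nsmul, hx, map_zero]
    have h2 := hord _ h1
    rw [hn'] at h2
    push_cast at h2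
    have hp0 : (p : ℤ) ≠ 0 := by exact_mod_cast hpp.ne_zero
    obtain ⟨k', hk'⟩ := (mul_dvd_mul_iff_left hp0).mp h2
    have hcop : IsCoprime (m : ℤ) (p : ℤ) := by
      rw [Nat.isCoprime_iff_coprime]
      exact ((Nat.Prime.coprime_iff_not_dvd hpp).mpr hm).symm
    obtain ⟨a, b, hab⟩ := hcop
    -- `a * m + b * p = 1`
    set y : H2 G C := x - (k' * a) • ((n' * m) • U) with hy
    have hyres : H2.res (P : Subgroup G) y = 0 := by
      rw [hy, map_sub, map_zsmul, map_nsmul, hk, ← hrU, ← natCast_zsmul, smul_smul, ← sub_smul]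
      have e : k - k' * a * ((n' * m : ℕ) : ℤ) = (k' * b) * (Nat.card (P : Subgroup G) : ℤ) := by
        rw [hk', hn']
        push_cast
        linear_combination -(n' : ℤ) * k' * hab
      rw [e, mul_smul, natCast_zsmul, Q_card_smul, smul_zero]
    have hym : m • y = 0 := res_index_inj (P : Subgroup G) y hyres
    have hyp : p • y = 0 := by
      have e : p • y = p • x - (k' * a) • (p • ((n' * m) • U)) := by
        rw [hy]; module
      rw [e, hx, hq0p, smul_zero, sub_zero]
    have hy0 : y = 0 := by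
      have e : (a * (m : ℤ) + b * (p : ℤ)) • y = a • (m • y) + b • (p • y) := by module
      rw [hab, one_smul, hym, hyp, smul_zero, smul_zero, add_zero] at e
      exact e
    have hx' : x = (k' * a) • ((n' * m) • U) := sub_eq_zero.mp hy0
    refine ⟨((k' * a) % p).toNat, ?_⟩
    rw [hx']
    have hpos : 0 ≤ (k' * a) % (p : ℤ) := Int.emod_nonneg _ hp0
    rw [← natCast_zsmul ((n' * m) • U) (((k' * a) % p).toNat), Int.toNat_of_nonneg hpos]
    have e : (k' * a) • ((n' * m) • U) = ((k' * a) / (p : ℤ)) • (p • ((n' * m) • U))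
        + ((k' * a) % (p : ℤ)) • ((n' * m) • U) := by
      conv_lhs => rw [← Int.mul_ediv_add_emod (k' * a) p]
      module
    rw [e, hq0p, smul_zero, zero_add]

end Q

end Fermat.Agent.S55Lib
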