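import Fermat.Agent.S55.B.WP

/-! # S55 chapter B, block (D): the connecting isomorphism `H¹(G,N) = H²(G,X1)` -/

set_option autoImplicit false

namespace Fermat.Agent.S55Lib

open groupCohomology

section D

/-- (D1) -/
theorem delta_iff {H : Type} [Group H] [Finite H] {N X0 X1 : Type} [AddCommGroup N]
    [AddCommGroup X0] [AddCommGroup X1]
    [DistribMulAction H N] [DistribMulAction H X0] [DistribMulAction H X1]
    (hX0 : IsWP H X0) (j : X1 →+ X0) (π : X0 →+ N)
    (ej : ∀ (g : H) x, j (g • x) = g • j x) (eπ : ∀ (g : H) x, π (g • x) = g • π x)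
    (hj : Function.Injective j) (hjπ : ∀ x, π x = 0 ↔ ∃ y, j y = x) (hπ : Function.Surjective π)
    (c : H → X0) (e : H × H → X1) (hce : ∀ a b, j (e (a, b)) = a • c b - c (a * b) + c a) :
    IsCoboundary₁ (fun a => π (c a)) ↔ IsCoboundary₂ e := by
  constructor
  · rintro ⟨n, hn⟩
    obtain ⟨x0, rfl⟩ := hπ n
    have h1 : ∀ a, ∃ y, j y = c a - (a • x0 - x0) := fun a => (hjπ _).1 (by
      rw [map_sub, map_sub, eπ, hn a, sub_self])
    choose t ht using h1
    refine ⟨t, fun a b => hj ?_⟩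
    rw [map_add, map_sub, ej, ht, ht, ht, hce, mul_smul, smul_sub, smul_sub]
    abel
  · rintro ⟨t, ht⟩
    have h1 : IsCocycle₁ (fun a => c a - j (t a)) := fun a b => by
      have h2 := hce a b
      rw [← ht a b, map_add, map_sub, ej] at h2
      show c (a * b) - j (t (a * b)) = a • (c b - j (t b)) + (c a - j (t a))
      rw [smul_sub]
      have h3 : c (a * b) - j (t (a * b)) =
          (a • c b - (a • c b - c (a * b) + c a)) + c a - j (t (a * b)) := by abel
      rw [h3, ← h2]
      abel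
    obtain ⟨x0, hx0⟩ := hX0.h1 h1
    refine ⟨π x0, fun a => ?_⟩
    have h4 : π (j (t a)) = 0 := (hjπ _).2 ⟨_, rfl⟩
    have h5 := congrArg π (hx0 a)
    rw [map_sub, map_sub, eπ, h4, sub_zero] at h5
    exact h5

/-- the group of pairs `(c, e)` with `j ∘ e = d c` -/
def D_pairs (G : Type) [Group G] {X0 X1 : Type} [AddCommGroup X0] [AddCommGroup X1]
    [DistribMulAction G X0] (j : X1 →+ X0) : AddSubgroup ((G → X0) × (G × G → X1)) where
  carrier := {ce | ∀ a b, j (ce.2 (a, b)) = a • ce.1 b - ce.1 (a * b) + ce.1 a}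
  zero_mem' := fun a b => by simp
  add_mem' := fun {x y} hx hy a b => by
    simp only [Prod.snd_add, Prod.fst_add, Pi.add_apply, map_add, hx a b, hy a b, smul_add]
    abel
  neg_mem' := fun {x} hx a b => by
    simp only [Prod.snd_neg, Prod.fst_neg, Pi.neg_apply, map_neg, hx a b, smul_neg]
    abel

lemma D_cocycle₁ {G : Type} [Group G] {N X0 X1 : Type} [AddCommGroup N]
    [AddCommGroup X0] [AddCommGroup X1]
    [DistribMulAction G N] [DistribMulAction G X0]
    (j : X1 →+ X0) (π : X0 →+ N) (eπ : ∀ (g : G) x, π (g • x) = g • π x)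
    (hjπ : ∀ x, π x = 0 ↔ ∃ y, j y = x) (ce : D_pairs G j) :
    IsCocycle₁ (fun a => π ((ce : (G → X0) × (G × G → X1)).1 a)) := fun a b => by
  have h1 := congrArg π (ce.2 a b)
  rw [(hjπ _).2 ⟨_, rfl⟩, map_add, map_sub, eπ] at h1
  have h2 : π ((ce : (G → X0) × (G × G → X1)).1 (a * b)) =
      a • π ((ce : (G → X0) × (G × G → X1)).1 b) + π ((ce : (G → X0) × (G × G → X1)).1 a) -
      (a • π ((ce : (G → X0) × (G × G → X1)).1 b) - π ((ce : (G → X0) × (G × G → X1)).1 (a * b)) +
        π ((ce : (G → X0) × (G × G → X1)).1 a)) := by abel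
  show π ((ce : (G → X0) × (G × G → X1)).1 (a * b)) = _
  rw [h2, ← h1, sub_zero]

lemma D_cocycle₂ {G : Type} [Group G] {X0 X1 : Type}
    [AddCommGroup X0] [AddCommGroup X1] [DistribMulAction G X0] [DistribMulAction G X1]
    (j : X1 →+ X0) (ej : ∀ (g : G) x, j (g • x) = g • j x) (hj : Function.Injective j)
    (ce : D_pairs G j) : IsCocycle₂ (ce : (G → X0) × (G × G → X1)).2 := fun a b k => hj (by
  rw [map_add, map_add, ej, ce.2, ce.2, ce.2, ce.2, smul_add, smul_sub, mul_smul, mul_assoc]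
  abel)

/-- (D2) -/
theorem sha_equiv {G : Type} [Group G] [Finite G] {N X0 X1 : Type} [AddCommGroup N]
    [AddCommGroup X0] [AddCommGroup X1]
    [DistribMulAction G N] [DistribMulAction G X0] [DistribMulAction G X1]
    (hX0 : IsWP G X0) (j : X1 →+ X0) (π : X0 →+ N)
    (ej : ∀ (g : G) x, j (g • x) = g • j x) (eπ : ∀ (g : G) x, π (g • x) = g • π x)
    (hj : Function.Injective j) (hjπ : ∀ x, π x = 0 ↔ ∃ y, j y = x) (hπ : Function.Surjective π)
    {ι : Type} (D : ι → Subgroup G) :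
    Nonempty (Sha1 G N D ≃+ Sha2 G X1 D) := by
  let α : D_pairs G j →+ H1 G N :=
    { toFun := fun ce => H1.mk ⟨fun a => π ((ce : (G → X0) × (G × G → X1)).1 a),
        D_cocycle₁ j π eπ hjπ ce⟩
      map_zero' := by
        rw [H1.mk_eq_zero]
        exact ⟨0, fun a => by simp⟩
      map_add' := fun x y => by
        rw [← H1.mk_add]
        congr 1
        exact Subtype.ext (funext fun a => by simp) }
  let β : D_pairs G j →+ H2 G X1 :=
    { toFun := fun ce => H2.mk ⟨(ce : (G → X0) × (G × G → X1)).2, D_cocycle₂ j ej hj ce⟩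
      map_zero' := rfl
      map_add' := fun x y => rfl }
  have hα : Function.Surjective α := by
    intro x
    obtain ⟨f, rfl⟩ := H1.mk_surjective x
    choose c hc using fun a => hπ ((f : G → N) a)
    have h1 : ∀ ab : G × G, ∃ y, j y = ab.1 • c ab.2 - c (ab.1 * ab.2) + c ab.1 := fun ab =>
      (hjπ _).1 (by
        rw [map_add, map_sub, eπ, hc, hc, hc, f.2 ab.1 ab.2]; abel)
    choose e he using h1
    refine ⟨⟨(c, e), fun a b => he (a, b)⟩, ?_⟩
    show H1.mk _ = H1.mk f
    congr 1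
    exact Subtype.ext (funext hc)
  have hβ : Function.Surjective β := by
    intro x
    obtain ⟨f, rfl⟩ := H2.mk_surjective x
    have h1 : IsCocycle₂ (fun ab => j ((f : G × G → X1) ab)) := fun a b k => by
      have := congrArg j (f.2 a b k)
      rw [map_add, map_add, ej] at this
      exact this
    obtain ⟨c, hc⟩ := hX0.h2 h1
    exact ⟨⟨(c, f), fun a b => (hc a b).symm⟩, rfl⟩
  have hker : α.ker = β.ker := by
    ext ce
    rw [AddMonoidHom.mem_ker, AddMonoidHom.mem_ker]
    show H1.mk _ = 0 ↔ H2.mk _ = 0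
    rw [H1.mk_eq_zero, H2.mk_eq_zero]
    exact delta_iff hX0 j π ej eπ hj hjπ hπ _ _ ce.2
  let δ : H1 G N ≃+ H2 G X1 :=
    (QuotientAddGroup.quotientKerEquivOfSurjective α hα).symm.trans
      ((QuotientAddGroup.quotientAddEquivOfEq hker).trans
        (QuotientAddGroup.quotientKerEquivOfSurjective β hβ))
  have hδ : ∀ ce, δ (α ce) = β ce := fun ce => by
    have h1 : (QuotientAddGroup.quotientKerEquivOfSurjective α hα).symm (α ce) =
        (ce : D_pairs G j ⧸ α.ker) := by
      rw [AddEquiv.symm_apply_eq]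
      rfl
    show (QuotientAddGroup.quotientKerEquivOfSurjective β hβ)
      ((QuotientAddGroup.quotientAddEquivOfEq hker)
        ((QuotientAddGroup.quotientKerEquivOfSurjective α hα).symm (α ce))) = _
    rw [h1]
    rfl
  have hmem : ∀ ce, α ce ∈ Sha1 G N D ↔ β ce ∈ Sha2 G X1 D := fun ce => by
    rw [mem_Sha1, mem_Sha2]
    refine forall_congr' fun v => ?_
    show H1.mk _ = 0 ↔ H2.mk _ = 0
    rw [H1.mk_eq_zero, H2.mk_eq_zero]
    exact delta_iff (hX0.subgroup (D v)) j π (fun g x => ej g x) (fun g x => eπ g x) hj hjπ hπ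
      (fun d : D v => (ce : (G → X0) × (G × G → X1)).1 d)
      (fun dd : D v × D v => (ce : (G → X0) × (G × G → X1)).2 (dd.1, dd.2))
      (fun a b => ce.2 a b)
  have hmap : (Sha1 G N D).map (δ : H1 G N →+ H2 G X1) = Sha2 G X1 D := by
    ext y
    constructor
    · rintro ⟨x, hx, rfl⟩
      obtain ⟨ce, rfl⟩ := hα x
      show δ (α ce) ∈ _
      rw [hδ]
      exact (hmem ce).1 hx
    · intro hy
      obtain ⟨ce, rfl⟩ := hβ y
      exact ⟨α ce, (hmem ce).2 hy, hδ ce⟩
  exact ⟨(δ.addSubgroupMap (Sha1 G N D)).trans (AddEquiv.addSubgroupCongr hmap)⟩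

/-- (D3) -/
theorem H2_p_torsion {H : Type} [Group H] [Finite H] {X0 X1 : Type}
    [AddCommGroup X0] [AddCommGroup X1] [DistribMulAction H X0] [DistribMulAction H X1]
    (hX0 : IsWP H X0) (j : X1 →+ X0) (ej : ∀ (g : H) x, j (g • x) = g • j x)
    (hj : Function.Injective j) (p : ℕ) (hp : ∀ x : X0, ∃ y, j y = p • x) (x : H2 H X1) :
    p • x = 0 := by
  obtain ⟨f, rfl⟩ := H2.mk_surjective x
  rw [← H2.mk_nsmul, H2.mk_eq_zero]
  have h1 : IsCocycle₂ (fun ab => j ((f : H × H → X1) ab)) := fun a b k => by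
    have := congrArg j (f.2 a b k)
    rw [map_add, map_add, ej] at this
    exact this
  obtain ⟨c, hc⟩ := hX0.h2 h1
  choose t ht using fun a => hp (c a)
  refine ⟨t, fun a b => hj ?_⟩
  show _ = j (p • (f : H × H → X1) (a, b))
  have h2 : j ((f : H × H → X1) (a, b)) = a • c b - c (a * b) + c a := (hc a b).symm
  rw [map_add, map_sub, ej, ht, ht, ht, map_nsmul, h2, smul_add, smul_sub, smul_comm]

end D

end Fermat.Agent.S55Lib
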