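import Mathlib

/-! # S55 chapter B, block (L): linear algebra over `𝔽_p` for abelian groups killed by `p` -/

set_option autoImplicit false

namespace Fermat.Agent.S55Lib

section L

variable (p : ℕ) [Fact p.Prime]

lemma L_retr_mod {W : Type} [AddCommGroup W] [Module (ZMod p) W] (S : Submodule (ZMod p) W) :
    ∃ f : W →ₗ[ZMod p] S, ∀ s : S, f s = s := by
  obtain ⟨f, hf⟩ := S.subtype.exists_leftInverse_of_injective (by simp)
  exact ⟨f, fun s => congrArg (fun F : S →ₗ[ZMod p] S => F s) hf⟩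

lemma L_retr_add {W : Type} [AddCommGroup W] [Module (ZMod p) W] (S : AddSubgroup W) :
    ∃ ρ : W →+ S, ∀ s : S, ρ s = s := by
  obtain ⟨f, hf⟩ := L_retr_mod p (AddSubgroup.toZModSubmodule p S)
  exact ⟨f.toAddMonoidHom, fun s => hf s⟩

lemma L_card_dual {W : Type} [AddCommGroup W] [Module (ZMod p) W] [Finite W] :
    Nat.card (Module.Dual (ZMod p) W) = Nat.card W := by
  have : Module.Finite (ZMod p) W := Module.Finite.of_finite
  rw [Module.natCard_eq_pow_finrank (K := ZMod p) (V := Module.Dual (ZMod p) W),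
    Module.natCard_eq_pow_finrank (K := ZMod p) (V := W), Subspace.dual_finrank_eq]

/-- (L1) -/
theorem exists_retraction {W : Type} [AddCommGroup W] (hW : ∀ w : W, p • w = 0)
    (S : AddSubgroup W) : ∃ ρ : W →+ S, ∀ s : S, ρ s = s := by
  letI : Module (ZMod p) W := AddCommGroup.zmodModule hW
  exact L_retr_add p S

/-- (L2) -/
theorem exists_factor {ι : Type} [Fintype ι] {W Q : Type} [AddCommGroup W] [AddCommGroup Q]
    {Wv : ι → Type} [∀ v, AddCommGroup (Wv v)] (hWv : ∀ v, ∀ w : Wv v, p • w = 0)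
    (ρ : ∀ v, W →+ Wv v) (lam : W →+ Q) (h : ∀ w, (∀ v, ρ v w = 0) → lam w = 0) :
    ∃ h : ∀ v, Wv v →+ Q, ∀ w, lam w = ∑ v, h v (ρ v w) := by
  classical
  let R : W →+ (∀ v, Wv v) := AddMonoidHom.pi ρ
  obtain ⟨r, hr⟩ := exists_retraction p (W := ∀ v, Wv v)
    (fun w => funext fun v => hWv v (w v)) R.range
  -- `lam` factors through the range of `R`
  have hker : R.ker ≤ lam.ker := fun w hw => by
    rw [AddMonoidHom.mem_ker] at hw ⊢
    exact h w fun v => congrFun hw v
  let lbar : R.range →+ Q :=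
    (QuotientAddGroup.lift R.ker lam hker).comp
      (QuotientAddGroup.quotientKerEquivRange R).symm.toAddMonoidHom
  have hlbar : ∀ w, lbar ⟨R w, w, rfl⟩ = lam w := fun w => by
    have h1 : (QuotientAddGroup.quotientKerEquivRange R).symm ⟨R w, w, rfl⟩ =
        (w : W ⧸ R.ker) := by
      rw [AddEquiv.symm_apply_eq]
      rfl
    show QuotientAddGroup.lift R.ker lam hker
      ((QuotientAddGroup.quotientKerEquivRange R).symm ⟨R w, w, rfl⟩) = _
    rw [h1]
    rfl
  refine ⟨fun v => (lbar.comp r).comp (AddMonoidHom.single Wv v), fun w => ?_⟩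
  have h2 : R w = ∑ v, Pi.single v (ρ v w) := by
    rw [Finset.univ_sum_single]
    rfl
  have h3 : lbar (r (R w)) = lam w := by
    have := hr ⟨R w, w, rfl⟩
    rw [this, hlbar]
  rw [← h3, h2, map_sum, map_sum]
  rfl

/-- (L4) -/
theorem exists_zmod_hom {Q : Type} [AddCommGroup Q] (q : Q) (hq : p • q = 0) :
    ∃ m : ZMod p →+ Q, ∀ k : ZMod p, m k = k.val • q := by
  refine ⟨ZMod.lift p ⟨zmultiplesHom Q q, by simpa using hq⟩, fun k => ?_⟩
  have h1 : (k : ZMod p) = ((k.val : ℤ) : ZMod p) := by simp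
  conv_lhs => rw [h1]
  rw [ZMod.lift_coe]
  show zmultiplesHom Q q (k.val : ℤ) = _
  rw [zmultiplesHom_apply, natCast_zsmul]

/-- (L3) -/
theorem exists_coord {W Q : Type} [AddCommGroup W] [AddCommGroup Q] (hW : ∀ w : W, p • w = 0)
    (q : Q) (hq0 : q ≠ 0) (hq : p • q = 0) (hQ : ∀ x : Q, p • x = 0 → ∃ k : ℕ, x = k • q)
    (h : W →+ Q) : ∃ l : W →+ ZMod p, ∀ w, h w = (l w).val • q := by
  obtain ⟨m, hm⟩ := exists_zmod_hom p q hq
  have hminj : Function.Injective m := by
    rw [injective_iff_map_eq_zero]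
    intro k hk
    by_contra hk0
    apply hq0
    have h1 : m 1 = q := by
      rw [hm, ZMod.val_one, one_smul]
    have h2 : m (k⁻¹ * k) = 0 := by
      have : k⁻¹ * k = (k⁻¹).val • k := by
        rw [nsmul_eq_mul, ZMod.natCast_zmod_val]
      rw [this, map_nsmul, hk, smul_zero]
    rw [inv_mul_cancel₀ hk0, h1] at h2
    exact h2
  have hex : ∀ w, ∃ k : ZMod p, m k = h w := fun w => by
    obtain ⟨k, hk⟩ := hQ (h w) (by rw [← map_nsmul, hW, map_zero])
    refine ⟨(k : ZMod p), ?_⟩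
    have h1 : m 1 = q := by
      rw [hm, ZMod.val_one, one_smul]
    have : ((k : ℕ) : ZMod p) = k • (1 : ZMod p) := by simp
    rw [this, map_nsmul, h1, hk]
  choose l hl using hex
  refine ⟨AddMonoidHom.mk' l fun a b => hminj ?_, fun w => ?_⟩
  · rw [map_add, hl, hl, hl, map_add]
  · show h w = (l w).val • q
    rw [← hm, hl]

/-- (L5) -/
theorem card_hom_eq {W Q : Type} [AddCommGroup W] [Finite W] [AddCommGroup Q]
    (hW : ∀ w : W, p • w = 0)
    (q : Q) (hq0 : q ≠ 0) (hq : p • q = 0) (hQ : ∀ x : Q, p • x = 0 → ∃ k : ℕ, x = k • q) :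
    Nat.card (W →+ Q) = Nat.card W := by
  letI : Module (ZMod p) W := AddCommGroup.zmodModule hW
  obtain ⟨m, hm⟩ := exists_zmod_hom p q hq
  have hminj : Function.Injective m := by
    rw [injective_iff_map_eq_zero]
    intro k hk
    by_contra hk0
    apply hq0
    have h1 : m 1 = q := by
      rw [hm, ZMod.val_one, one_smul]
    have h2 : m (k⁻¹ * k) = 0 := by
      have : k⁻¹ * k = (k⁻¹).val • k := by
        rw [nsmul_eq_mul, ZMod.natCast_zmod_val]
      rw [this, map_nsmul, hk, smul_zero]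
    rw [inv_mul_cancel₀ hk0, h1] at h2
    exact h2
  -- `(W →ₗ ZMod p) ≃ (W →+ Q)`
  have hb : Function.Bijective (fun l : Module.Dual (ZMod p) W => m.comp l.toAddMonoidHom) := by
    constructor
    · intro l l' hll
      ext w
      exact hminj (congrArg (fun F : W →+ Q => F w) hll)
    · intro h
      obtain ⟨l, hl⟩ := exists_coord p hW q hq0 hq hQ h
      refine ⟨l.toZModLinearMap p, AddMonoidHom.ext fun w => ?_⟩
      show m (l w) = h w
      rw [hm, hl]
  rw [← Nat.card_congr (Equiv.ofBijective _ hb)]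
  exact L_card_dual p

end L

end Fermat.Agent.S55Lib
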