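import Fermat.Agent.S55.B.LemmaK
import Fermat.Agent.S55.B.Delta
import Fermat.Agent.S55.B.LinAlg
import Fermat.Agent.S55.B.ShapiroSurj
import Fermat.Agent.S55.B.ShapiroInj
import Fermat.Agent.S55.B.ShapiroRes
import Fermat.Agent.S55.B.ClassTorsion

/-! # S55 chapter B: assembly of Theorem B (with the two Tate-Nakayama roots as hypotheses) -/

set_option autoImplicit false
set_option linter.unusedSectionVars false

namespace Fermat.Agent.S55Lib

open groupCohomology

/-- the statement of the root `TN_inj` of chapter T -/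
def TNInjStatement : Prop :=
  ∀ (G : Type) [Group G] [Finite G] (p : ℕ) [Fact p.Prime]
    {C : Type} [AddCommGroup C] [DistribMulAction G C] (u : G × G → C)
    (_ : IsClassModule p G C u)
    {X : Type} [AddCommGroup X] [DistribMulAction G X] [Module.Free ℤ X] [Module.Finite ℤ X]
    (φ : HomM G X C) (_ : φ ∈ inv (⊤ : Subgroup G) (HomM G X C))
    (_ : ∀ f : G × G → X, IsCocycle₂ f → IsCoboundary₂ (fun x => φ (f x))),
    ∃ m : ℕ, m.Coprime p ∧ ∃ ψ : HomM G X C, m • φ = normG G (HomM G X C) ψ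

/-- the statement of the root `TN_surj` of chapter T -/
def TNSurjStatement : Prop :=
  ∀ (G : Type) [Group G] [Finite G] (p : ℕ) [Fact p.Prime]
    {C : Type} [AddCommGroup C] [DistribMulAction G C] (u : G × G → C)
    (_ : IsClassModule p G C u)
    {X : Type} [AddCommGroup X] [DistribMulAction G X] [Module.Free ℤ X] [Module.Finite ℤ X]
    (lam : H2 G X →+ H2 G C),
    ∃ m : ℕ, m.Coprime p ∧ ∃ φ ∈ inv (⊤ : Subgroup G) (HomM G X C),
      ∀ (f : Z2 G X) (f' : Z2 G C), (∀ x, (f' : G × G → C) x = φ ((f : G × G → X) x)) →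
        H2.mk f' = m • lam (H2.mk f)

section Aux

lemma M_bezout {A : Type} [AddCommGroup A] {p m : ℕ} (h : m.Coprime p) :
    ∃ m1 : ℤ, ∀ a : A, p • a = 0 → m1 • (m • a) = a := by
  refine ⟨Nat.gcdA m p, fun a ha => ?_⟩
  have h1 : ((Nat.gcd m p : ℕ) : ℤ) = m * Nat.gcdA m p + p * Nat.gcdB m p := Nat.gcd_eq_gcd_ab m p
  rw [h] at h1
  have h2 : (1 : ℤ) • a = (m * Nat.gcdA m p + p * Nat.gcdB m p : ℤ) • a := by
    rw [← h1]; simp
  rw [one_smul, add_smul] at h2
  have h3 : ((p : ℤ) * Nat.gcdB m p) • a = 0 := by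
    rw [mul_comm, mul_smul, natCast_zsmul, ha, smul_zero]
  rw [h3, add_zero, mul_comm, mul_smul, natCast_zsmul] at h2
  exact h2.symm

lemma M_mem_of_coprime {A : Type} [AddCommGroup A] {p m : ℕ} (h : m.Coprime p)
    (S : AddSubgroup A) {a : A} (h1 : m • a ∈ S) (h2 : p • a ∈ S) : a ∈ S := by
  have h3 : ((Nat.gcd m p : ℕ) : ℤ) = m * Nat.gcdA m p + p * Nat.gcdB m p := Nat.gcd_eq_gcd_ab m p
  rw [h] at h3
  have h4 : (1 : ℤ) • a = (m * Nat.gcdA m p + p * Nat.gcdB m p : ℤ) • a := by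
    rw [← h3]; simp
  rw [one_smul, add_smul, mul_comm, mul_smul, natCast_zsmul, mul_comm, mul_smul,
    natCast_zsmul] at h4
  rw [h4]
  exact S.add_mem (S.zsmul_mem h1 _) (S.zsmul_mem h2 _)

end Aux

section Push

variable {G : Type} [Group G]

lemma M_post_mem_inv {X A B : Type} [AddCommGroup X] [AddCommGroup A] [AddCommGroup B]
    [DistribMulAction G X] [DistribMulAction G A] [DistribMulAction G B] (π : A →+ B)
    (eπ : ∀ (g : G) x, π (g • x) = g • π x) {φ : HomM G X A}
    (hφ : φ ∈ inv (⊤ : Subgroup G) (HomM G X A)) :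
    HomM.post π φ ∈ inv (⊤ : Subgroup G) (HomM G X B) := by
  rw [HomM.mem_inv_top] at hφ ⊢
  intro g x
  show π (φ (g • x)) = g • π (φ x)
  rw [hφ, eπ]

lemma M_pre_mem_inv {X Y A : Type} [AddCommGroup X] [AddCommGroup Y] [AddCommGroup A]
    [DistribMulAction G X] [DistribMulAction G Y] [DistribMulAction G A] (j : X →+ Y)
    (ej : ∀ (g : G) x, j (g • x) = g • j x) {φ : HomM G Y A}
    (hφ : φ ∈ inv (⊤ : Subgroup G) (HomM G Y A)) :
    HomM.pre j φ ∈ inv (⊤ : Subgroup G) (HomM G X A) := by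
  rw [HomM.mem_inv_top] at hφ ⊢
  intro g x
  show φ (j (g • x)) = g • φ (j x)
  rw [ej, hφ]

lemma M_push_mk {A B : Type} [AddCommGroup A] [AddCommGroup B]
    [DistribMulAction G A] [DistribMulAction G B] (φ : inv (⊤ : Subgroup G) (HomM G A B))
    (f : Z2 G A) : H2.push φ (H2.mk f) = 0 ↔
      IsCoboundary₂ (fun x => (φ : HomM G A B) ((f : G × G → A) x)) := by
  show H2.mk _ = 0 ↔ _
  rw [H2.mk_eq_zero]
  rfl

lemma M_push_post {X A B : Type} [AddCommGroup X] [AddCommGroup A] [AddCommGroup B]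
    [DistribMulAction G X] [DistribMulAction G A] [DistribMulAction G B] (π : A →+ B)
    (eπ : ∀ (g : G) x, π (g • x) = g • π x) (φ : inv (⊤ : Subgroup G) (HomM G X A))
    (w : H2 G X) :
    H2.push ⟨HomM.post π (φ : HomM G X A), M_post_mem_inv π eπ φ.2⟩ w =
      H2.cmap (MonoidHom.id G) π (fun g a => eπ g a) (H2.push φ w) := by
  obtain ⟨f, rfl⟩ := H2.mk_surjective w
  rfl

lemma M_push_zsmul {A B : Type} [AddCommGroup A] [AddCommGroup B]
    [DistribMulAction G A] [DistribMulAction G B] (n : ℤ) (φ : inv (⊤ : Subgroup G) (HomM G A B))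
    (w : H2 G A) : H2.push (n • φ) w = n • H2.push φ w := by
  have := map_zsmul (H2.pushHom (G := G) (A := A) (B := B)) n φ
  exact congrArg (fun F : H2 G A →+ H2 G B => F w) this

end Push

section TNforms

variable {G : Type} [Group G] [Finite G]

/-- exact form of `TN_surj` when `p` kills the source -/
lemma M_TN_surj (hsurj : TNSurjStatement) (p : ℕ) [Fact p.Prime]
    {C : Type} [AddCommGroup C] [DistribMulAction G C] (u : G × G → C)
    (hC : IsClassModule p G C u)
    {X : Type} [AddCommGroup X] [DistribMulAction G X] [Module.Free ℤ X] [Module.Finite ℤ X]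
    (hX : ∀ w : H2 G X, p • w = 0) (lam : H2 G X →+ H2 G C) :
    ∃ φ : inv (⊤ : Subgroup G) (HomM G X C), ∀ w, H2.push φ w = lam w := by
  obtain ⟨m, hm, φ, hφ, h⟩ := hsurj G p u hC lam
  obtain ⟨m1, hm1⟩ := M_bezout (A := H2 G C) hm
  refine ⟨m1 • ⟨φ, hφ⟩, fun w => ?_⟩
  rw [M_push_zsmul]
  obtain ⟨f, rfl⟩ := H2.mk_surjective w
  have h1 : H2.push ⟨φ, hφ⟩ (H2.mk f) = m • lam (H2.mk f) := h f _ (fun x => rfl)
  rw [h1]
  apply hm1
  rw [← map_nsmul, hX, map_zero]

end TNforms

section Local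

variable {G : Type} [Group G] [Finite G]

lemma M_trivial_of_not_dvd (p : ℕ) [Fact p.Prime] {A : Type} [AddCommGroup A]
    [DistribMulAction G A] (hp : ¬ p ∣ Nat.card G) (w : H2 G A) (hw : p • w = 0) : w = 0 := by
  have h1 : Nat.card G • w = 0 := by
    obtain ⟨f, rfl⟩ := H2.mk_surjective w
    rw [← H2.mk_nsmul, H2.mk_eq_zero]
    exact card_smul_isCoboundary₂ f.2
  have hc : (Nat.card G).Coprime p :=
    ((Nat.Prime.coprime_iff_not_dvd (Fact.out : p.Prime)).2 hp).symm
  have := M_mem_of_coprime hc (⊥ : AddSubgroup (H2 G A)) (a := w) (by simpa using h1)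
    (by simpa using hw)
  simpa using this

/-- a nonzero `p`-torsion element generates the `p`-torsion of a group whose `p`-torsion is
cyclic. -/
lemma M_gen_change (p : ℕ) [Fact p.Prime] {Q : Type} [AddCommGroup Q] (q0 q : Q)
    (hq0 : p • q0 = 0) (hQ : ∀ x : Q, p • x = 0 → ∃ k : ℕ, x = k • q0)
    (hq : p • q = 0) (hqne : q ≠ 0) : ∀ x : Q, p • x = 0 → ∃ k : ℕ, x = k • q := by
  obtain ⟨k, hk⟩ := hQ q hq
  have hkp : k.Coprime p := by
    refine ((Nat.Prime.coprime_iff_not_dvd (Fact.out : p.Prime)).2 ?_).symm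
    rintro ⟨c, rfl⟩
    apply hqne
    rw [hk, mul_comm, mul_smul, hq0, smul_zero]
  obtain ⟨m1, hm1⟩ := M_bezout (A := Q) hkp
  have h1 : q0 = m1 • q := by rw [hk]; exact (hm1 q0 hq0).symm
  intro x hx
  obtain ⟨l, hl⟩ := hQ x hx
  -- x = (l * m1) • q, make the coefficient natural
  refine ⟨((l * m1) % p).toNat, ?_⟩
  have hp0 : (p : ℤ) ≠ 0 := by exact_mod_cast (Fact.out : p.Prime).ne_zero
  have h2 : (((l * m1) % p).toNat : ℤ) = (l * m1) % p :=
    Int.toNat_of_nonneg (Int.emod_nonneg _ hp0)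
  rw [← natCast_zsmul, h2, hl, h1]
  have h3 : ((l : ℤ) * m1) = (l * m1) % p + p * ((l * m1) / p) := (Int.emod_add_mul_ediv _ _).symm
  have h4 : ((p : ℤ) * ((l * m1) / p)) • q = 0 := by
    rw [mul_comm, mul_smul, natCast_zsmul, hq, smul_zero]
  calc l • m1 • q = ((l : ℤ) * m1) • q := by rw [mul_smul, natCast_zsmul]
    _ = ((l * m1) % p + p * ((l * m1) / p)) • q := by rw [← h3]
    _ = _ := by rw [add_smul, h4, add_zero]

/-- (M1) every homomorphism `H²(D,X) → H²(G,C)` composed with restriction is induced by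
`pr ∘ φ̃`, `φ̃ ∈ Hom_G(X, Coind K)`. -/
theorem M_local_surj (hsurj : TNSurjStatement) (p : ℕ) [Fact p.Prime]
    {X C : Type} [AddCommGroup X] [AddCommGroup C] [DistribMulAction G X] [DistribMulAction G C]
    [Module.Free ℤ X] [Module.Finite ℤ X]
    (u : G × G → C) (hC : IsClassModule p G C u)
    (D : Subgroup G) (K : Type) [AddCommGroup K] [DistribMulAction D K]
    (uv : D × D → K) (hK : IsClassModule p D K uv)
    (pr : Coind D.subtype K →+ C) (epr : ∀ (g : G) x, pr (g • x) = g • pr x)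
    (hLG : ∀ f : G × G → Coind D.subtype K, IsCocycle₂ f → IsCoboundary₂ (p • f) →
      IsCoboundary₂ (fun x => pr (f x)) → IsCoboundary₂ f)
    (hWv : ∀ w : H2 D X, p • w = 0) (h : H2 D X →+ H2 G C) :
    ∃ φ : inv (⊤ : Subgroup G) (HomM G X (Coind D.subtype K)), ∀ w : H2 G X,
      H2.push ⟨HomM.post pr (φ : HomM G X (Coind D.subtype K)), M_post_mem_inv pr epr φ.2⟩ w =
        h (H2.res D w) := by
  by_cases hpD : p ∣ Nat.card D
  swap
  · refine ⟨0, fun w => ?_⟩
    rw [M_trivial_of_not_dvd p hpD (H2.res D w) (hWv _), map_zero, M_push_post pr epr]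
    have : H2.push (0 : inv (⊤ : Subgroup G) (HomM G X (Coind D.subtype K))) w = 0 := by
      have := map_zero (H2.pushHom (G := G) (A := X) (B := Coind D.subtype K))
      exact congrArg (fun F : H2 G X →+ H2 G (Coind D.subtype K) => F w) this
    rw [this, map_zero]
  have hpG : p ∣ Nat.card G := hpD.trans (Subgroup.card_subgroup_dvd_card D)
  obtain ⟨q', hq'ne, hq', hQ'⟩ := classModule_ptorsion p uv hK hpD
  obtain ⟨q0, hq0ne, hq0, hQ0⟩ := classModule_ptorsion p u hC hpG
  obtain ⟨ut, hut⟩ := sh_surjective D K q'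
  have hput : p • ut = 0 := by
    apply sh_injective D K
    rw [map_nsmul, hut, hq', map_zero]
  set prS : H2 G (Coind D.subtype K) →+ H2 G C :=
    H2.cmap (MonoidHom.id G) pr (fun g a => epr g a) with hprS
  set q'' : H2 G C := prS ut with hq''def
  have hq'' : p • q'' = 0 := by rw [hq''def, ← map_nsmul, hput, map_zero]
  have hq''ne : q'' ≠ 0 := by
    intro h0
    apply hq'ne
    obtain ⟨f, rfl⟩ := H2.mk_surjective ut
    have h1 : IsCoboundary₂ (p • (f : G × G → Coind D.subtype K)) := by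
      rw [← H2.mk_nsmul, H2.mk_eq_zero] at hput
      exact hput
    have h2 : IsCoboundary₂ (fun x => pr ((f : G × G → Coind D.subtype K) x)) := by
      have : H2.mk (Z2.cmap (MonoidHom.id G) pr (fun g a => epr g a) f) = 0 := h0
      rw [H2.mk_eq_zero] at this
      exact this
    have h3 := hLG _ f.2 h1 h2
    rw [← hut, (H2.mk_eq_zero (f := f)).2 h3, map_zero]
  have hQ'' := M_gen_change p q0 q'' hq0 hQ0 hq'' hq''ne
  obtain ⟨l, hl⟩ := exists_coord p hWv q'' hq''ne hq'' hQ'' h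
  obtain ⟨mm, hmm⟩ := exists_zmod_hom p q' hq'
  obtain ⟨φ1, hφ1⟩ := M_TN_surj hsurj p uv hK hWv (mm.comp l)
  refine ⟨frob D φ1, fun w => ?_⟩
  rw [M_push_post pr epr]
  have h1 : H2.push (frob D φ1) w = (l (H2.res D w)).val • ut := by
    apply sh_injective D K
    rw [sh_push_frob, hφ1, map_nsmul, hut]
    exact hmm _
  rw [h1, map_nsmul, hl]

end Local

section Global

variable {G : Type} [Group G] [Finite G]

/-- (M2b) `pr ∘ φ̃` kills `Ш²`. -/
lemma M_post_kills (D : Subgroup G) {X C K : Type} [AddCommGroup X] [AddCommGroup C]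
    [AddCommGroup K] [DistribMulAction G X] [DistribMulAction G C] [DistribMulAction D K]
    (pr : Coind D.subtype K →+ C) (epr : ∀ (g : G) x, pr (g • x) = g • pr x)
    (φ : inv (⊤ : Subgroup G) (HomM G X (Coind D.subtype K))) (w : H2 G X)
    (hw : H2.res D w = 0) :
    H2.push ⟨HomM.post pr (φ : HomM G X (Coind D.subtype K)), M_post_mem_inv pr epr φ.2⟩ w = 0 := by
  rw [M_push_post pr epr]
  have h1 : H2.push φ w = 0 := by
    apply sh_injective D K
    rw [map_zero]
    have hc : Compat (A := X) (B := K) (MonoidHom.id D)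
        ((Coind.ev D).comp (φ : HomM G X (Coind D.subtype K)).toHom) := fun d x => by
      have h2 := HomM.mem_inv_top.1 φ.2 (d : G) x
      have h3 := Coind.compat_ev (K := K) D d ((φ : HomM G X (Coind D.subtype K)) x)
      show Coind.ev D ((φ : HomM G X (Coind D.subtype K)) ((d : G) • x)) = _
      rw [h2]
      exact h3
    have h4 : H2.sh D (H2.push φ w) = H2.cmap (MonoidHom.id D) _ hc (H2.res D w) := by
      obtain ⟨f, rfl⟩ := H2.mk_surjective w
      rfl
    rw [h4, hw, map_zero]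
  rw [h1, map_zero]

/-- (M3a) `p φ` extends to `X0`. -/
lemma M_p_smul_mem {X0 X1 C : Type} [AddCommGroup X0] [AddCommGroup X1] [AddCommGroup C]
    [DistribMulAction G X0] [DistribMulAction G X1] [DistribMulAction G C]
    (j : X1 →+ X0) (ej : ∀ (g : G) x, j (g • x) = g • j x) (hj : Function.Injective j)
    (p : ℕ) (hp : ∀ x : X0, ∃ y, j y = p • x) {φ : HomM G X1 C}
    (hφ : φ ∈ inv (⊤ : Subgroup G) (HomM G X1 C)) :
    p • φ ∈ (inv (⊤ : Subgroup G) (HomM G X0 C)).map (HomM.pre j) := by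
  choose a ha using hp
  have hadd : ∀ x y, a (x + y) = a x + a y := fun x y => hj (by
    rw [map_add, ha, ha, ha, smul_add])
  have hsm : ∀ (g : G) x, a (g • x) = g • a x := fun g x => hj (by
    rw [ej, ha, ha, smul_comm])
  have haj : ∀ x, a (j x) = p • x := fun x => hj (by rw [ha, map_nsmul])
  let aH : X0 →+ X1 := AddMonoidHom.mk' a hadd
  refine ⟨HomM.of (φ.toHom.comp aH), ?_, ?_⟩
  · rw [SetLike.mem_coe, HomM.mem_inv_top]
    intro g x
    show φ (a (g • x)) = g • φ (a x)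
    rw [hsm, HomM.mem_inv_top.1 hφ]
  · ext x
    show φ (a (j x)) = (p • φ) x
    rw [haj, map_nsmul]
    rfl

/-- **Theorem B** (formal).  See board post #529 (3). -/
theorem thmB_of_TN (hinj : TNInjStatement) (hsurj : TNSurjStatement)
    (p : ℕ) [Fact p.Prime] (V : Subgroup G) [V.Normal]
    {N X0 X1 : Type} [AddCommGroup N] [AddCommGroup X0] [AddCommGroup X1]
    [DistribMulAction G N] [DistribMulAction G X0] [DistribMulAction G X1]
    [Finite N] (hpN : ∀ n : N, p • n = 0) (hVN : ∀ s ∈ V, ∀ n : N, s • n = n)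
    (hX0 : IsFreeZG G X0) (j : X1 →+ X0) (π : X0 →+ N)
    (ej : ∀ (g : G) x, j (g • x) = g • j x) (eπ : ∀ (g : G) x, π (g • x) = g • π x)
    (hj : Function.Injective j) (hjπ : ∀ x, π x = 0 ↔ ∃ y, j y = x) (hπ : Function.Surjective π)
    {C : Type} [AddCommGroup C] [DistribMulAction G C] (u : G × G → C)
    (hC : IsClassModule p G C u)
    (hB3 : ∀ c : C, ∃ c' ∈ inv V C, normG V C c = p • c')
    {ι : Type} [Finite ι] (D : ι → Subgroup G)
    (K : ι → Type) [∀ v, AddCommGroup (K v)] [∀ v, DistribMulAction (D v) (K v)]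
    (uv : ∀ v, D v × D v → K v) (hK : ∀ v, IsClassModule p (D v) (K v) (uv v))
    (pr : ∀ v, Coind (D v).subtype (K v) →+ C)
    (epr : ∀ v (g : G) x, pr v (g • x) = g • pr v x)
    (hLG : ∀ v, ∀ f : G × G → Coind (D v).subtype (K v), IsCocycle₂ f → IsCoboundary₂ (p • f) →
      IsCoboundary₂ (fun x => pr v (f x)) → IsCoboundary₂ f) :
    Finite (Sha1 G N D) ∧
    Nat.card (inv (⊤ : Subgroup G) (HomM G X1 C) ⧸
      (((inv (⊤ : Subgroup G) (HomM G X0 C)).map (HomM.pre j) ⊔
        ⨆ v, (inv (⊤ : Subgroup G) (HomM G X1 (Coind (D v).subtype (K v)))).map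
          (HomM.post (pr v))).addSubgroupOf (inv (⊤ : Subgroup G) (HomM G X1 C))))
      = Nat.card (Sha1 G N D) := by
  classical
  have : Fintype ι := Fintype.ofFinite ι
  have hWP : IsWP G X0 := hX0.isWP
  obtain ⟨hfree0, hfin0⟩ := hX0.free_finite
  have hjl : Function.Injective j.toIntLinearMap := hj
  have : Module.Finite ℤ X1 := Module.Finite.of_injective j.toIntLinearMap hjl
  have : Module.Free ℤ X1 :=
    Module.Free.of_equiv (LinearEquiv.ofInjective j.toIntLinearMap hjl).symm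
  have hp : ∀ x : X0, ∃ y, j y = p • x := fun x => (hjπ _).1 (by rw [map_nsmul, hpN])
  have hV : ∀ s ∈ V, ∀ x : X0, ∃ y, j y = s • x - x := fun s hs x =>
    (hjπ _).1 (by rw [map_sub, eπ, hVN s hs, sub_self])
  have hK0 := lemmaK p V hWP j ej hj hp hV hB3
  have hW : ∀ w : H2 G X1, p • w = 0 := H2_p_torsion hWP j ej hj p hp
  have hWv : ∀ v, ∀ w : H2 (D v) X1, p • w = 0 := fun v =>
    H2_p_torsion (hWP.subgroup (D v)) j (fun g x => ej g x) hj p hp
  obtain ⟨eS⟩ := sha_equiv hWP j π ej eπ hj hjπ hπ D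
  have : Finite (H1 G N) := inferInstance
  have : Finite (Sha1 G N D) := inferInstance
  have : Finite (Sha2 G X1 D) := Finite.of_equiv _ eS.toEquiv
  refine ⟨inferInstance, ?_⟩
  rw [Nat.card_congr eS.toEquiv]
  let Ψ : inv (⊤ : Subgroup G) (HomM G X1 C) →+ (Sha2 G X1 D →+ H2 G C) :=
    (AddMonoidHom.compHom' (Sha2 G X1 D).subtype).comp H2.pushHom
  have hΨ : ∀ φ (w : Sha2 G X1 D), Ψ φ w = H2.push φ (w : H2 G X1) := fun φ w => rfl
  have hΨsurj : Function.Surjective Ψ := by
    intro lam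
    obtain ⟨ρ, hρ⟩ := exists_retraction p hW (Sha2 G X1 D)
    obtain ⟨φ, hφ⟩ := M_TN_surj hsurj p u hC hW (lam.comp ρ)
    refine ⟨φ, AddMonoidHom.ext fun w => ?_⟩
    rw [hΨ, hφ, AddMonoidHom.comp_apply, hρ]
  have hker : Ψ.ker = (((inv (⊤ : Subgroup G) (HomM G X0 C)).map (HomM.pre j) ⊔
        ⨆ v, (inv (⊤ : Subgroup G) (HomM G X1 (Coind (D v).subtype (K v)))).map
          (HomM.post (pr v))).addSubgroupOf (inv (⊤ : Subgroup G) (HomM G X1 C))) := by
    apply le_antisymm
    · intro φ hφ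
      rw [AddMonoidHom.mem_ker] at hφ
      rw [AddSubgroup.mem_addSubgroupOf]
      have h0 : ∀ w : H2 G X1, (∀ v, H2.res (D v) w = 0) → H2.push φ w = 0 := fun w hw => by
        have := congrArg (fun F : Sha2 G X1 D →+ H2 G C => F ⟨w, mem_Sha2.2 hw⟩) hφ
        exact this
      obtain ⟨h, hh⟩ := exists_factor p hWv (fun v => H2.res (A := X1) (D v)) (H2.push φ) h0
      choose φt hφt using fun v => M_local_surj hsurj p u hC (D v) (K v) (uv v) (hK v) (pr v) (epr v)
        (hLG v) (hWv v) (h v)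
      let φv : ι → inv (⊤ : Subgroup G) (HomM G X1 C) := fun v =>
        ⟨HomM.post (pr v) (φt v : HomM G X1 (Coind (D v).subtype (K v))),
          M_post_mem_inv (pr v) (epr v) (φt v).2⟩
      let φ' : inv (⊤ : Subgroup G) (HomM G X1 C) := φ - ∑ v, φv v
      have hφ' : ∀ w, H2.push φ' w = 0 := fun w => by
        have h1 : H2.pushHom φ' = H2.pushHom φ - ∑ v, H2.pushHom (φv v) := by
          rw [map_sub, map_sum]
        have h2 := congrArg (fun F : H2 G X1 →+ H2 G C => F w) h1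
        have h3 : H2.push φ' w = H2.push φ w - ∑ v, H2.push (φv v) w := by
          simp only [AddMonoidHom.sub_apply, AddMonoidHom.finsetSum_apply] at h2
          exact h2
        rw [h3, hh, sub_eq_zero]
        exact Finset.sum_congr rfl fun v _ => (hφt v w).symm
      obtain ⟨m, hm, ψ, hψ⟩ := hinj G p u hC (φ' : HomM G X1 C) φ'.2 (fun f hf =>
        (M_push_mk φ' ⟨f, hf⟩).1 (hφ' _))
      have hR0 : (φ' : HomM G X1 C) ∈ (inv (⊤ : Subgroup G) (HomM G X0 C)).map (HomM.pre j) := by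
        refine M_mem_of_coprime hm _ ?_ (M_p_smul_mem j ej hj p hp φ'.2)
        rw [hK0, hψ]
        exact ⟨ψ, rfl⟩
      have hdec : (φ : HomM G X1 C) = (φ' : HomM G X1 C) + ∑ v, (φv v : HomM G X1 C) := by
        have : φ = φ' + ∑ v, φv v := by simp [φ']
        have h5 := congrArg (fun z : inv (⊤ : Subgroup G) (HomM G X1 C) => (z : HomM G X1 C)) this
        simpa using h5
      rw [hdec]
      refine AddSubgroup.add_mem _ (AddSubgroup.mem_sup_left hR0) (AddSubgroup.mem_sup_right ?_)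
      refine AddSubgroup.sum_mem _ fun v _ => ?_
      exact AddSubgroup.mem_iSup_of_mem v ⟨_, (φt v).2, rfl⟩
    · intro φ hφ
      rw [AddSubgroup.mem_addSubgroupOf] at hφ
      rw [AddMonoidHom.mem_ker]
      -- the set of elements of `Hom(X1,C)` which are invariant and kill `Ш²`
      let Z : AddSubgroup (HomM G X1 C) := (Ψ.ker).map (inv (⊤ : Subgroup G) (HomM G X1 C)).subtype
      have hZ : (inv (⊤ : Subgroup G) (HomM G X0 C)).map (HomM.pre j) ⊔
        ⨆ v, (inv (⊤ : Subgroup G) (HomM G X1 (Coind (D v).subtype (K v)))).map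
          (HomM.post (pr v)) ≤ Z := by
        refine sup_le ?_ (iSup_le fun v => ?_)
        · rw [hK0]
          rintro _ ⟨ψ, rfl⟩
          refine ⟨⟨_, normG_mem_inv ψ⟩, ?_, rfl⟩
          rw [SetLike.mem_coe, AddMonoidHom.mem_ker]
          refine AddMonoidHom.ext fun w => ?_
          rw [hΨ]
          obtain ⟨f, hf⟩ := H2.mk_surjective (w : H2 G X1)
          rw [← hf]
          exact (M_push_mk _ f).2 (norm_isCoboundary₂ ψ f.2)
        · rintro _ ⟨φt, hφt, rfl⟩
          refine ⟨⟨_, M_post_mem_inv (pr v) (epr v) hφt⟩, ?_, rfl⟩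
          rw [SetLike.mem_coe, AddMonoidHom.mem_ker]
          refine AddMonoidHom.ext fun w => ?_
          rw [hΨ]
          exact M_post_kills (D v) (pr v) (epr v) ⟨φt, hφt⟩ _ (mem_Sha2.1 w.2 v)
      obtain ⟨φ2, hφ2, h2⟩ := hZ hφ
      have : φ2 = φ := Subtype.ext h2
      rw [← this]
      exact hφ2
  rw [← hker, Nat.card_congr (QuotientAddGroup.quotientKerEquivOfSurjective Ψ hΨsurj).toEquiv]
  by_cases hpG : p ∣ Nat.card G
  · obtain ⟨q0, hq0ne, hq0, hQ0⟩ := classModule_ptorsion p u hC hpG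
    exact card_hom_eq p (fun w => Subtype.ext (hW w)) q0 hq0ne hq0 hQ0
  · have : Subsingleton (Sha2 G X1 D) :=
      ⟨fun a b => Subtype.ext (by
        rw [M_trivial_of_not_dvd p hpG (a : H2 G X1) (hW _),
          M_trivial_of_not_dvd p hpG (b : H2 G X1) (hW _)])⟩
    have : Subsingleton (Sha2 G X1 D →+ H2 G C) :=
      ⟨fun a b => AddMonoidHom.ext fun w => by
        rw [Subsingleton.elim w 0, map_zero, map_zero]⟩
    rw [Nat.card_unique, Nat.card_unique]

end Global

end Fermat.Agent.S55Lib
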