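import Fermat.Agent.S55.B.ThmB
import Fermat.Agent.S55.L.Transport

/-! # S55 chapter B: Theorem B for injective homomorphisms `ρ_v : D_v → G` -/

set_option autoImplicit false
set_option linter.unusedSectionVars false

namespace Fermat.Agent.S55Lib

open groupCohomology

/-- `Ш¹` of a group `Q` with respect to homomorphisms `ρ_v : D_v → Q` -/
def Sha1' (Q : Type) [Group Q] (N : Type) [AddCommGroup N] [DistribMulAction Q N]
    {ι : Type} (D : ι → Type) [∀ v, Group (D v)] (ρ : ∀ v, D v →* Q) : AddSubgroup (H1 Q N) where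
  carrier := {x | ∃ f : Z1 Q N, H1.mk f = x ∧
    ∀ v, ∃ n : N, ∀ d : D v, (f : Q → N) (ρ v d) = ρ v d • n - n}
  zero_mem' := ⟨0, rfl, fun v => ⟨0, fun d => by simp⟩⟩
  add_mem' := by
    rintro _ _ ⟨f, rfl, hf⟩ ⟨f', rfl, hf'⟩
    refine ⟨f + f', rfl, fun v => ?_⟩
    obtain ⟨x, hx⟩ := hf v
    obtain ⟨y, hy⟩ := hf' v
    exact ⟨x + y, fun d => by
      simp only [AddSubgroup.coe_add, Pi.add_apply, hx d, hy d, smul_add]; abel⟩
  neg_mem' := by
    rintro _ ⟨f, rfl, hf⟩
    refine ⟨-f, rfl, fun v => ?_⟩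
    obtain ⟨x, hx⟩ := hf v
    exact ⟨-x, fun d => by
      simp only [AddSubgroup.coe_neg, Pi.neg_apply, hx d, smul_neg]; abel⟩

lemma Sha1'_eq (Q : Type) [Group Q] (N : Type) [AddCommGroup N] [DistribMulAction Q N]
    {ι : Type} (D : ι → Type) [∀ v, Group (D v)] (ρ : ∀ v, D v →* Q) :
    Sha1' Q N D ρ = Sha1 Q N (fun v => (ρ v).range) := by
  ext x
  constructor
  · rintro ⟨f, rfl, hf⟩
    refine ⟨f, rfl, fun v => ?_⟩
    obtain ⟨n, hn⟩ := hf v
    refine ⟨n, ?_⟩
    rintro ⟨_, d, rfl⟩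
    exact (hn d).symm
  · rintro ⟨f, rfl, hf⟩
    refine ⟨f, rfl, fun v => ?_⟩
    obtain ⟨n, hn⟩ := hf v
    exact ⟨n, fun d => (hn ⟨ρ v d, d, rfl⟩).symm⟩

section Transport

variable {G : Type} [Group G] {D : Type} [Group D] (ρ : D →* G) (hρ : Function.Injective ρ)
  (K : Type) [AddCommGroup K] [DistribMulAction D K]

/-- the action of the range of `ρ` on `K` -/
@[reducible] noncomputable def rangeAction : DistribMulAction ρ.range K :=
  DistribMulAction.compHom K (MonoidHom.ofInjective hρ).symm.toMonoidHom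

lemma rangeAction_smul (d : D) (k : K) :
    letI := rangeAction ρ hρ K
    (⟨ρ d, d, rfl⟩ : ρ.range) • k = d • k := by
  letI := rangeAction ρ hρ K
  show ((MonoidHom.ofInjective hρ).symm ⟨ρ d, d, rfl⟩) • k = d • k
  congr 1
  rw [MulEquiv.symm_apply_eq]
  rfl

lemma mem_Coind_range_iff (F : G → K) :
    letI := rangeAction ρ hρ K
    F ∈ Coind ρ.range.subtype K ↔ F ∈ Coind ρ K := by
  letI := rangeAction ρ hρ K
  constructor
  · intro h d g
    have := h ⟨ρ d, d, rfl⟩ g
    rw [rangeAction_smul] at this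
    exact this
  · rintro h ⟨_, d, rfl⟩ g
    rw [rangeAction_smul]
    exact h d g

/-- the identification `Coind ρ K = Coind (range ρ) K` -/
noncomputable def coindRangeEquiv :
    letI := rangeAction ρ hρ K
    Coind ρ K ≃+ Coind ρ.range.subtype K :=
  letI := rangeAction ρ hρ K
  { toFun := fun F => ⟨F, (mem_Coind_range_iff ρ hρ K F).2 F.2⟩
    invFun := fun F => ⟨F, (mem_Coind_range_iff ρ hρ K F).1 F.2⟩
    left_inv := fun _ => rfl
    right_inv := fun _ => rfl
    map_add' := fun _ _ => rfl }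

end Transport

section Main

variable {G : Type} [Group G] [Finite G]

/-- **Theorem B'** (formal): Theorem B for injective homomorphisms `ρ_v : D_v → G`. -/
theorem thmB'_of_TN (hinj : TNInjStatement) (hsurj : TNSurjStatement)
    (p : ℕ) [Fact p.Prime] (V : Subgroup G) [V.Normal]
    {N X0 X1 : Type} [AddCommGroup N] [AddCommGroup X0] [AddCommGroup X1]
    [DistribMulAction G N] [DistribMulAction G X0] [DistribMulAction G X1]
    [Finite N] (hpN : ∀ n : N, p • n = 0) (hVN : ∀ s ∈ V, ∀ n : N, s • n = n)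
    (hX0 : IsFreeZG G X0) (j : X1 →+ X0) (π : X0 →+ N)
    (ej : ∀ (g : G) x, j (g • x) = g • j x) (eπ : ∀ (g : G) x, π (g • x) = g • π x)
    (hj : Function.Injective j) (hjπ : ∀ x, π x = 0 ↔ ∃ y, j y = x) (hπ : Function.Surjective π)
    {C : Type} [AddCommGroup C] [DistribMulAction G C] (u : G × G → C)
    (hC : IsClassModule p G C u)
    (hB3 : ∀ c : C, ∃ c' ∈ inv V C, normG V C c = p • c')
    {ι : Type} [Finite ι] (D : ι → Type) [∀ v, Group (D v)] (ρ : ∀ v, D v →* G)
    (hρ : ∀ v, Function.Injective (ρ v))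
    (K : ι → Type) [∀ v, AddCommGroup (K v)] [∀ v, DistribMulAction (D v) (K v)]
    (uv : ∀ v, D v × D v → K v) (hK : ∀ v, IsClassModule p (D v) (K v) (uv v))
    (pr : ∀ v, Coind (ρ v) (K v) →+ C)
    (epr : ∀ v (g : G) x, pr v (g • x) = g • pr v x)
    (hLG : ∀ v, ∀ f : G × G → Coind (ρ v) (K v), IsCocycle₂ f → IsCoboundary₂ (p • f) →
      IsCoboundary₂ (fun x => pr v (f x)) → IsCoboundary₂ f) :
    Finite (Sha1' G N D ρ) ∧
    Nat.card (inv (⊤ : Subgroup G) (HomM G X1 C) ⧸
      (((inv (⊤ : Subgroup G) (HomM G X0 C)).map (HomM.pre j) ⊔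
        ⨆ v, (inv (⊤ : Subgroup G) (HomM G X1 (Coind (ρ v) (K v)))).map
          (HomM.post (pr v))).addSubgroupOf (inv (⊤ : Subgroup G) (HomM G X1 C))))
      = Nat.card (Sha1' G N D ρ) := by
  letI inst : ∀ v, DistribMulAction (ρ v).range (K v) := fun v => rangeAction (ρ v) (hρ v) (K v)
  let ε := fun v => coindRangeEquiv (ρ v) (hρ v) (K v)
  have hε : ∀ v (g : G) x, ε v (g • x) = g • ε v x := fun v g x => rfl
  have hεs : ∀ v (g : G) x, (ε v).symm (g • x) = g • (ε v).symm x := fun v g x => rfl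
  have hK' : ∀ v, IsClassModule p (ρ v).range (K v)
      (fun x => uv v ((MonoidHom.ofInjective (hρ v)).symm x.1,
        (MonoidHom.ofInjective (hρ v)).symm x.2)) := fun v =>
    IsClassModule.transport p (MonoidHom.ofInjective (hρ v)).symm (AddEquiv.refl (K v))
      (fun g a => rfl) (uv v) (hK v)
  have key := thmB_of_TN hinj hsurj p V hpN hVN hX0 j π ej eπ hj hjπ hπ u hC hB3
    (fun v => (ρ v).range) K _ hK' (fun v => (pr v).comp (ε v).symm.toAddMonoidHom)
    (fun v g x => by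
      show pr v ((ε v).symm (g • x)) = g • pr v ((ε v).symm x)
      rw [hεs, epr])
    (fun v f hf hpf hprf => by
      have h1 : IsCocycle₂ (fun x => (ε v).symm (f x)) :=
        (transport_isCocycle₂ (MulEquiv.refl G) (ε v).symm (fun g a => hεs v g a) f).2 hf
      have h2 : IsCoboundary₂ (p • fun x => (ε v).symm (f x)) :=
        (transport_isCoboundary₂ (MulEquiv.refl G) (ε v).symm (fun g a => hεs v g a) (p • f)).2 hpf
      have h3 := hLG v _ h1 h2 hprf
      exact (transport_isCoboundary₂ (MulEquiv.refl G) (ε v).symm (fun g a => hεs v g a) f).1 h3)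
  rw [Sha1'_eq]
  have hR : ∀ v, (inv (⊤ : Subgroup G) (HomM G X1 (Coind (ρ v) (K v)))).map (HomM.post (pr v)) =
      (inv (⊤ : Subgroup G) (HomM G X1 (Coind (ρ v).range.subtype (K v)))).map
        (HomM.post ((pr v).comp (ε v).symm.toAddMonoidHom)) := by
    intro v
    ext φ
    constructor
    · rintro ⟨ψ, hψ, rfl⟩
      exact ⟨HomM.post (ε v).toAddMonoidHom ψ,
        M_post_mem_inv (ε v).toAddMonoidHom (fun g x => hε v g x) hψ, rfl⟩
    · rintro ⟨ψ, hψ, rfl⟩
      exact ⟨HomM.post (ε v).symm.toAddMonoidHom ψ,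
        M_post_mem_inv (ε v).symm.toAddMonoidHom (fun g x => hεs v g x) hψ, rfl⟩
  simp only [hR]
  exact key

end Main

end Fermat.Agent.S55Lib
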