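import Fermat.Agent.S55.B.Norm

/-! # S55 chapter B, block (W): weakly projective modules -/

set_option autoImplicit false

namespace Fermat.Agent.S55Lib

open groupCohomology

section W

variable {G : Type} [Group G] [Finite G]

/-- `X` is weakly projective: `id = N_G(e)` for an additive endomorphism `e`. -/
def IsWP (G : Type) [Group G] [Finite G] (X : Type) [AddCommGroup X] [DistribMulAction G X] :
    Prop :=
  ∃ e : HomM G X X, normG G (HomM G X X) e = HomM.of (AddMonoidHom.id X)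

variable {X : Type} [AddCommGroup X] [DistribMulAction G X]

/-- (W1) `e` = projection to the coordinates `(i, 1)`. -/
theorem IsFreeZG.isWP (h : IsFreeZG G X) : IsWP G X := by
  classical
  have := Fintype.ofFinite G
  obtain ⟨n, e, hbij⟩ := h
  let Φ : ((Fin n × G) →₀ ℤ) →+ X :=
    Finsupp.liftAddHom (fun ig => zmultiplesHom X (ig.2 • e ig.1))
  have hΦbij : Function.Bijective Φ := hbij
  have hΦs : ∀ i h k, Φ (Finsupp.single (i, h) k) = k • (h • e i) := fun i h k => by
    simp [Φ]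
  let E := AddEquiv.ofBijective Φ hΦbij
  have hE : ∀ c, E.symm (Φ c) = c := fun c => E.symm_apply_apply c
  let ε : X →+ X := (Φ.comp (Finsupp.filterAddHom (fun ig : Fin n × G => ig.2 = 1))).comp
    E.symm.toAddMonoidHom
  have hε : ∀ c, ε (Φ c) = Φ (Finsupp.filter (fun ig : Fin n × G => ig.2 = 1) c) := fun c => by
    show Φ (Finsupp.filter _ (E.symm (Φ c))) = _
    rw [hE]
  refine ⟨HomM.of ε, ?_⟩
  ext x
  rw [normG_HomM_apply]
  show ∑ g : G, g • ε (g⁻¹ • x) = x
  obtain ⟨c, rfl⟩ := hΦbij.2 x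
  induction c using Finsupp.induction_linear with
  | zero => simp
  | add c d hc hd => simp only [map_add, smul_add, Finset.sum_add_distrib, hc, hd]
  | single ig k =>
    obtain ⟨i, h⟩ := ig
    have h1 : ∀ g : G, g • ε (g⁻¹ • Φ (Finsupp.single (i, h) k)) =
        if g = h then Φ (Finsupp.single (i, h) k) else 0 := fun g => by
      have h2 : g⁻¹ • Φ (Finsupp.single (i, h) k) = Φ (Finsupp.single (i, g⁻¹ * h) k) := by
        rw [hΦs, hΦs, smul_comm, mul_smul]
      rw [h2, hε]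
      by_cases hg : g = h
      · subst hg
        rw [if_pos rfl, Finsupp.filter_single_of_pos _ (by simp), hΦs, hΦs]
        simp [smul_comm g k]
      · rw [if_neg hg, Finsupp.filter_single_of_neg _ (by
          simp only
          intro h3
          exact hg (inv_mul_eq_one.1 h3)), map_zero, smul_zero]
    rw [Finset.sum_congr rfl (fun g _ => h1 g)]
    simp

/-- (W1') -/
theorem IsFreeZG.free_finite (h : IsFreeZG G X) : Module.Free ℤ X ∧ Module.Finite ℤ X := by
  classical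
  obtain ⟨n, e, hbij⟩ := h
  let Φ : ((Fin n × G) →₀ ℤ) →+ X :=
    Finsupp.liftAddHom (fun ig => zmultiplesHom X (ig.2 • e ig.1))
  have hΦbij : Function.Bijective Φ := hbij
  let E : ((Fin n × G) →₀ ℤ) ≃ₗ[ℤ] X := (AddEquiv.ofBijective Φ hΦbij).toIntLinearEquiv
  exact ⟨Module.Free.of_equiv E, Module.Finite.equiv E⟩

omit [Finite G] in
/-- summation over cosets -/
theorem W_sum_coset (D : Subgroup G) [Fintype G] [Fintype D] [Fintype (G ⧸ D)] {M : Type}
    [AddCommMonoid M] (F : G → M) :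
    ∑ g : G, F g = ∑ q : G ⧸ D, ∑ d : D, F (q.out * (d : G)) := by
  have hb : Function.Bijective (fun qd : (G ⧸ D) × D => qd.1.out * (qd.2 : G)) := by
    constructor
    · rintro ⟨q, d⟩ ⟨q', d'⟩ h
      simp only at h
      have h1 : ((q.out * (d : G) : G) : G ⧸ D) = q := by
        rw [QuotientGroup.mk_mul_of_mem _ d.2]; exact q.out_eq'
      have h2 : ((q'.out * (d' : G) : G) : G ⧸ D) = q' := by
        rw [QuotientGroup.mk_mul_of_mem _ d'.2]; exact q'.out_eq'
      have h3 : q = q' := by rw [← h1, ← h2, h]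
      subst h3
      have h4 : (d : G) = d' := mul_left_cancel h
      rw [Subtype.ext h4]
    · intro g
      have h1 : ((g : G ⧸ D).out)⁻¹ * g ∈ D := by
        rw [← QuotientGroup.eq]; exact (g : G ⧸ D).out_eq'
      exact ⟨((g : G ⧸ D), ⟨_, h1⟩), by simp⟩
  rw [← Fintype.sum_prod_type']
  exact (Fintype.sum_equiv (Equiv.ofBijective _ hb) _ _ (fun qd => rfl)).symm

/-- (W2) `e' = ∑_{t ∈ G/D} t⁻¹ • e`. -/
theorem IsWP.subgroup (h : IsWP G X) (D : Subgroup G) : IsWP D X := by
  classical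
  have := Fintype.ofFinite G
  have := Fintype.ofFinite D
  have := Fintype.ofFinite (G ⧸ D)
  obtain ⟨e, he⟩ := h
  let e' : HomM G X X := ∑ q : G ⧸ D, (q.out)⁻¹ • e
  have he' : ∀ x, e' x = ∑ q : G ⧸ D, (q.out)⁻¹ • e (q.out • x) := fun x => by
    let ev : HomM G X X →+ X :=
      { toFun := fun φ => φ x, map_zero' := rfl, map_add' := fun _ _ => rfl }
    have : ev (∑ q : G ⧸ D, (q.out)⁻¹ • e) = ∑ q : G ⧸ D, ev ((q.out)⁻¹ • e) := map_sum ev _ _
    refine this.trans (Finset.sum_congr rfl fun q _ => ?_)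
    show (q.out)⁻¹ • e (((q.out)⁻¹)⁻¹ • x) = _
    rw [inv_inv]
  refine ⟨HomM.of e'.toHom, ?_⟩
  ext x
  rw [normG_HomM_apply]
  show ∑ d : D, d • e' (d⁻¹ • x) = x
  have h0 : normG G (HomM G X X) e x = x := by rw [he]; rfl
  rw [normG_HomM_apply] at h0
  conv_rhs => rw [← h0]
  have h1 : ∑ g : G, g • e (g⁻¹ • x) = ∑ g : G, g⁻¹ • e (g • x) :=
    Fintype.sum_equiv (Equiv.inv G) _ _ (fun g => by simp)
  rw [h1, W_sum_coset D, Finset.sum_comm]
  rw [← Fintype.sum_equiv (Equiv.inv D) (fun d => d⁻¹ • e' ((d⁻¹)⁻¹ • x))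
    (fun d => d • e' (d⁻¹ • x)) (fun d => rfl)]
  refine Finset.sum_congr rfl fun d _ => ?_
  rw [he', Finset.smul_sum]
  refine Finset.sum_congr rfl fun q _ => ?_
  rw [inv_inv, mul_inv_rev, mul_smul, mul_smul]
  rfl

/-- (W3) -/
theorem IsWP.h1 (h : IsWP G X) {f : G → X} (hf : IsCocycle₁ f) : IsCoboundary₁ f := by
  obtain ⟨e, he⟩ := h
  have := norm_isCoboundary₁ e hf
  rw [he] at this
  exact this

/-- (W4) -/
theorem IsWP.h2 (h : IsWP G X) {f : G × G → X} (hf : IsCocycle₂ f) : IsCoboundary₂ f := by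
  obtain ⟨e, he⟩ := h
  have := norm_isCoboundary₂ e hf
  rw [he] at this
  exact this

/-- (W5) `χ = N_G(χ ∘ e)` -/
theorem IsWP.mem_range_norm (h : IsWP G X) {C : Type} [AddCommGroup C] [DistribMulAction G C]
    {χ : HomM G X C} (hχ : χ ∈ inv (⊤ : Subgroup G) (HomM G X C)) :
    ∃ ψ : HomM G X C, normG G (HomM G X C) ψ = χ := by
  have := Fintype.ofFinite G
  obtain ⟨e, he⟩ := h
  refine ⟨HomM.of (χ.toHom.comp e.toHom), ?_⟩
  ext x
  rw [normG_HomM_apply]
  have h0 : normG G (HomM G X X) e x = x := by rw [he]; rfl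
  rw [normG_HomM_apply] at h0
  conv_rhs => rw [← h0]
  rw [map_sum]
  refine Finset.sum_congr rfl fun g _ => ?_
  rw [HomM.mem_inv_top.1 hχ]
  rfl

end W

end Fermat.Agent.S55Lib
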