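import Fermat.Agent.S55.B.ThmB2
import Fermat.Agent.S55.T.Root

/-! # S55 chapter B: the roots `thmB`, `thmB'` (unconditional) -/

set_option autoImplicit false
set_option linter.unusedSectionVars false

namespace Fermat.Agent.S55Lib

open groupCohomology

theorem tnInjStatement : TNInjStatement :=
  fun _ _ _ p _ _ _ _ u hC _ _ _ _ _ φ hφ h0 => TN_inj p u hC φ hφ h0

theorem tnSurjStatement : TNSurjStatement :=
  fun _ _ _ p _ _ _ _ u hC _ _ _ _ _ lam => TN_surj p u hC lam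

variable {G : Type} [Group G] [Finite G]

/-- **Theorem B** (formal).  See board post #529 (3). -/
theorem thmB (p : ℕ) [Fact p.Prime] (V : Subgroup G) [V.Normal]
    {N X0 X1 : Type} [AddCommGroup N] [AddCommGroup X0] [AddCommGroup X1]
    [DistribMulAction G N] [DistribMulAction G X0] [DistribMulAction G X1]
    [Finite N] (hpN : ∀ n : N, p • n = 0) (hVN : ∀ s ∈ V, ∀ n : N, s • n = n)
    (hX0 : IsFreeZG G X0) (j : X1 →+ X0) (π : X0 →+ N)
    (ej : ∀ (g : G) x, j (g • x) = g • j x) (eπ : ∀ (g : G) x, π (g • x) = g • π x)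
    (hj : Function.Injective j) (hjπ : ∀ x, π x = 0 ↔ ∃ y, j y = x) (hπ : Function.Surjective π)
    {C : Type} [AddCommGroup C] [DistribMulAction G C] (u : G × G → C)
    (hC : IsClassModule p G C u)
    (hB3 : ∀ c : C, ∃ c' ∈ inv V C, normG V C c = p • c')
    {ι : Type} [Finite ι] (D : ι → Subgroup G)
    (K : ι → Type) [∀ v, AddCommGroup (K v)] [∀ v, DistribMulAction (D v) (K v)]
    (uv : ∀ v, D v × D v → K v) (hK : ∀ v, IsClassModule p (D v) (K v) (uv v))
    (pr : ∀ v, Coind (D v).subtype (K v) →+ C)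
    (epr : ∀ v (g : G) x, pr v (g • x) = g • pr v x)
    (hLG : ∀ v, ∀ f : G × G → Coind (D v).subtype (K v), IsCocycle₂ f → IsCoboundary₂ (p • f) →
      IsCoboundary₂ (fun x => pr v (f x)) → IsCoboundary₂ f) :
    Finite (Sha1 G N D) ∧
    Nat.card (inv (⊤ : Subgroup G) (HomM G X1 C) ⧸
      (((inv (⊤ : Subgroup G) (HomM G X0 C)).map (HomM.pre j) ⊔
        ⨆ v, (inv (⊤ : Subgroup G) (HomM G X1 (Coind (D v).subtype (K v)))).map
          (HomM.post (pr v))).addSubgroupOf (inv (⊤ : Subgroup G) (HomM G X1 C))))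
      = Nat.card (Sha1 G N D) :=
  thmB_of_TN tnInjStatement tnSurjStatement p V hpN hVN hX0 j π ej eπ hj hjπ hπ u hC hB3 D K uv hK
    pr epr hLG

/-- **Theorem B'** (formal): Theorem B for injective homomorphisms `ρ_v : D_v → G`. -/
theorem thmB' (p : ℕ) [Fact p.Prime] (V : Subgroup G) [V.Normal]
    {N X0 X1 : Type} [AddCommGroup N] [AddCommGroup X0] [AddCommGroup X1]
    [DistribMulAction G N] [DistribMulAction G X0] [DistribMulAction G X1]
    [Finite N] (hpN : ∀ n : N, p • n = 0) (hVN : ∀ s ∈ V, ∀ n : N, s • n = n)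
    (hX0 : IsFreeZG G X0) (j : X1 →+ X0) (π : X0 →+ N)
    (ej : ∀ (g : G) x, j (g • x) = g • j x) (eπ : ∀ (g : G) x, π (g • x) = g • π x)
    (hj : Function.Injective j) (hjπ : ∀ x, π x = 0 ↔ ∃ y, j y = x) (hπ : Function.Surjective π)
    {C : Type} [AddCommGroup C] [DistribMulAction G C] (u : G × G → C)
    (hC : IsClassModule p G C u)
    (hB3 : ∀ c : C, ∃ c' ∈ inv V C, normG V C c = p • c')
    {ι : Type} [Finite ι] (D : ι → Type) [∀ v, Group (D v)] (ρ : ∀ v, D v →* G)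
    (hρ : ∀ v, Function.Injective (ρ v))
    (K : ι → Type) [∀ v, AddCommGroup (K v)] [∀ v, DistribMulAction (D v) (K v)]
    (uv : ∀ v, D v × D v → K v) (hK : ∀ v, IsClassModule p (D v) (K v) (uv v))
    (pr : ∀ v, Coind (ρ v) (K v) →+ C)
    (epr : ∀ v (g : G) x, pr v (g • x) = g • pr v x)
    (hLG : ∀ v, ∀ f : G × G → Coind (ρ v) (K v), IsCocycle₂ f → IsCoboundary₂ (p • f) →
      IsCoboundary₂ (fun x => pr v (f x)) → IsCoboundary₂ f) :
    Finite (Sha1' G N D ρ) ∧
    Nat.card (inv (⊤ : Subgroup G) (HomM G X1 C) ⧸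
      (((inv (⊤ : Subgroup G) (HomM G X0 C)).map (HomM.pre j) ⊔
        ⨆ v, (inv (⊤ : Subgroup G) (HomM G X1 (Coind (ρ v) (K v)))).map
          (HomM.post (pr v))).addSubgroupOf (inv (⊤ : Subgroup G) (HomM G X1 C))))
      = Nat.card (Sha1' G N D ρ) :=
  thmB'_of_TN tnInjStatement tnSurjStatement p V hpN hVN hX0 j π ej eπ hj hjπ hπ u hC hB3 D ρ hρ K
    uv hK pr epr hLG

end Fermat.Agent.S55Lib
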