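import Fermat.Agent.S55.B.WP

/-! # S55 chapter B, block (K): Lemma K -/

set_option autoImplicit false

namespace Fermat.Agent.S55Lib

open groupCohomology

section K

variable {G : Type} [Group G] [Finite G]

/-- lifting an additive map through an injective additive map -/
lemma K_lift {X0 X1 Y : Type} [AddCommGroup X0] [AddCommGroup X1] [AddCommGroup Y]
    (j : X1 →+ X0) (hj : Function.Injective j) (a : Y →+ X0) (h : ∀ x, ∃ y, j y = a x) :
    ∃ a' : Y →+ X1, ∀ x, j (a' x) = a x := by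
  choose f hf using h
  exact ⟨AddMonoidHom.mk' f fun x y => hj (by rw [map_add, hf, hf, hf, map_add]), hf⟩

omit [Finite G] in
lemma K_normV_apply (V : Subgroup G) [Finite V] [Fintype V] {X C : Type} [AddCommGroup X]
    [AddCommGroup C]
    [DistribMulAction G X] [DistribMulAction G C] (ψ : HomM G X C) (x : X) :
    normG V (HomM G X C) ψ x = ∑ σ : V, σ • ψ (σ⁻¹ • x) := by
  rw [normG_apply]
  let ev : HomM G X C →+ C :=
    { toFun := fun φ => φ x, map_zero' := rfl, map_add' := fun _ _ => rfl }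
  have : ev (∑ g : V, g • ψ) = ∑ g : V, ev (g • ψ) := map_sum ev _ _
  exact this

/-- (K1) `ξ y = ∑_{σ ∈ V} σ ψ((σ⁻¹ - 1) y) + θ (p y)`, where `θ : X1 → C^V` is additive with
`p θ(x) = N_V (ψ x)` (`X1` is `ℤ`-free). -/
theorem lemmaK_V (p : ℕ) (V : Subgroup G) {X0 X1 C : Type} [AddCommGroup X0] [AddCommGroup X1]
    [AddCommGroup C] [DistribMulAction G X0] [DistribMulAction G X1] [DistribMulAction G C]
    [Module.Free ℤ X1] (j : X1 →+ X0) (ej : ∀ (g : G) x, j (g • x) = g • j x)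
    (hj : Function.Injective j)
    (hp : ∀ x : X0, ∃ y, j y = p • x) (hV : ∀ s ∈ V, ∀ x : X0, ∃ y, j y = s • x - x)
    (hB3 : ∀ c : C, ∃ c' ∈ inv V C, normG V C c = p • c') (ψ : HomM G X1 C) :
    ∃ ξ ∈ inv V (HomM G X0 C), HomM.pre j ξ = normG V (HomM G X1 C) ψ := by
  classical
  have := Fintype.ofFinite V
  -- θ
  let b := Module.Free.chooseBasis ℤ X1
  choose c' hc'inv hc' using fun i => hB3 (ψ (b i))
  let θl : X1 →ₗ[ℤ] inv V C := b.constr ℤ (fun i => (⟨c' i, hc'inv i⟩ : inv V C))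
  let θ : X1 →+ C := (inv V C).subtype.comp θl.toAddMonoidHom
  have hθinv : ∀ x, ∀ τ : V, τ • θ x = θ x := fun x τ => (θl x).2 τ τ.2
  have hθ : ∀ x, p • θ x = normG V C (ψ x) := by
    have h1 : (p • θ).toIntLinearMap = ((normG V C).comp ψ.toHom).toIntLinearMap := by
      refine b.ext fun i => ?_
      show p • ((θl (b i) : inv V C) : C) = normG V C (ψ (b i))
      rw [hc' i, Module.Basis.constr_basis]
    intro x
    exact congrArg (fun F : X1 →ₗ[ℤ] C => F x) h1
  -- the maps `a σ`, `ap`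
  choose a ha using fun σ : V => K_lift j hj
    ((DistribSMul.toAddMonoidHom X0 (σ⁻¹ : V)) - AddMonoidHom.id X0)
    (fun x => hV (σ⁻¹ : V) (σ⁻¹ : V).2 x)
  have ha' : ∀ (σ : V) y, j (a σ y) = σ⁻¹ • y - y := fun σ y => ha σ y
  obtain ⟨ap, hap⟩ := K_lift j hj (p • AddMonoidHom.id X0) hp
  have hap' : ∀ y, j (ap y) = p • y := fun y => hap y
  let ξ : X0 →+ C := (∑ σ : V, (DistribSMul.toAddMonoidHom C σ).comp (ψ.toHom.comp (a σ))) +
    θ.comp ap
  have hξ : ∀ y, ξ y = ∑ σ : V, σ • ψ (a σ y) + θ (ap y) := fun y => by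
    show (∑ σ : V, (DistribSMul.toAddMonoidHom C σ).comp (ψ.toHom.comp (a σ))) y + θ (ap y) = _
    rw [AddMonoidHom.finsetSum_apply]
    rfl
  have ejV : ∀ (σ : V) x, j (σ • x) = σ • j x := fun σ x => ej σ x
  refine ⟨HomM.of ξ, ?_, ?_⟩
  · -- invariance
    have key : ∀ (τ : V) y, ξ (τ • y) = τ • ξ y := by
      intro τ y
      set z := a τ⁻¹ y with hz
      have hjz : j z = τ • y - y := by rw [hz, ha', inv_inv]
      have h1 : ∀ σ : V, a σ (τ • y) = a (τ⁻¹ * σ) y - z := fun σ => hj (by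
        rw [map_sub, ha', ha', hjz, mul_inv_rev, inv_inv, mul_smul]; abel)
      have h2 : ap (τ • y) = ap y + p • z := hj (by
        rw [map_add, map_nsmul, hap', hap', hjz, smul_sub]; abel)
      rw [hξ, hξ, smul_add, hθinv, h2, map_add, map_nsmul, hθ, normG_apply, Finset.smul_sum]
      have h3 : ∑ σ : V, τ • σ • ψ (a σ y) = ∑ σ : V, σ • ψ (a (τ⁻¹ * σ) y) :=
        Fintype.sum_equiv (Equiv.mulLeft τ) _ _ (fun σ => by simp [mul_smul])
      rw [h3]
      have h4 : ∑ σ : V, σ • ψ (a σ (τ • y)) =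
          ∑ σ : V, σ • ψ (a (τ⁻¹ * σ) y) - ∑ σ : V, σ • ψ z := by
        rw [← Finset.sum_sub_distrib]
        refine Finset.sum_congr rfl fun σ _ => ?_
        rw [h1, map_sub, smul_sub]
      rw [h4]
      abel
    intro τ hτ
    ext y
    show τ • ξ (τ⁻¹ • y) = ξ y
    have := key ⟨τ, hτ⟩ (τ⁻¹ • y)
    have h5 : (⟨τ, hτ⟩ : V) • (τ⁻¹ • y) = y := by
      show τ • τ⁻¹ • y = y
      simp
    rw [h5] at this
    rw [this]
    rfl
  · ext x
    show ξ (j x) = _
    rw [K_normV_apply, hξ]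
    have h1 : ∀ σ : V, a σ (j x) = σ⁻¹ • x - x := fun σ => hj (by
      rw [ha', map_sub, ejV])
    have h2 : ap (j x) = p • x := hj (by rw [hap', map_nsmul])
    rw [h2, map_nsmul, hθ, normG_apply]
    have h3 : ∑ σ : V, σ • ψ (a σ (j x)) = ∑ σ : V, σ • ψ (σ⁻¹ • x) - ∑ σ : V, σ • ψ x := by
      rw [← Finset.sum_sub_distrib]
      refine Finset.sum_congr rfl fun σ _ => ?_
      rw [h1, map_sub, smul_sub]
    rw [h3]
    abel

/-- (K2) `χ = ∑_{q ∈ G/V} q • ξ` -/
theorem norm_trans (V : Subgroup G) [V.Normal] {A B : Type} [AddCommGroup A] [AddCommGroup B]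
    [DistribMulAction G A] [DistribMulAction G B] (r : A →+ B)
    (er : ∀ (g : G) a, r (g • a) = g • r a) (b : B) (ξ : A) (hξ : ξ ∈ inv V A)
    (h : r ξ = normG V B b) : ∃ χ ∈ inv (⊤ : Subgroup G) A, r χ = normG G B b := by
  classical
  have := Fintype.ofFinite G
  have := Fintype.ofFinite V
  have := Fintype.ofFinite (G ⧸ V)
  let F : G ⧸ V → A := fun q => q.out • ξ
  have hF : ∀ g : G, F (g : G ⧸ V) = g • ξ := fun g => by
    have h1 : ((g : G ⧸ V).out)⁻¹ * g ∈ V := by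
      rw [← QuotientGroup.eq]; exact (g : G ⧸ V).out_eq'
    have h2 := hξ _ h1
    show (g : G ⧸ V).out • ξ = g • ξ
    conv_lhs => rw [← h2]
    rw [smul_smul]
    congr 1
    group
  refine ⟨∑ q : G ⧸ V, F q, ?_, ?_⟩
  · intro g _
    rw [Finset.smul_sum]
    refine Fintype.sum_equiv (MulAction.toPerm g) _ _ (fun q => ?_)
    induction q using QuotientGroup.induction_on with
    | H x =>
      show g • F (x : G ⧸ V) = F ((g * x : G) : G ⧸ V)
      rw [hF, hF, mul_smul]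
  · rw [map_sum, normG_apply, W_sum_coset V]
    refine Finset.sum_congr rfl fun q _ => ?_
    show r (q.out • ξ) = _
    rw [er, h, normG_apply, Finset.smul_sum]
    refine Finset.sum_congr rfl fun v _ => ?_
    rw [mul_smul]
    rfl

/-- (K3) **Lemma K** -/
theorem lemmaK (p : ℕ) (V : Subgroup G) [V.Normal] {X0 X1 C : Type} [AddCommGroup X0]
    [AddCommGroup X1]
    [AddCommGroup C] [DistribMulAction G X0] [DistribMulAction G X1] [DistribMulAction G C]
    [Module.Free ℤ X1] (hX0 : IsWP G X0) (j : X1 →+ X0) (ej : ∀ (g : G) x, j (g • x) = g • j x)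
    (hj : Function.Injective j)
    (hp : ∀ x : X0, ∃ y, j y = p • x) (hV : ∀ s ∈ V, ∀ x : X0, ∃ y, j y = s • x - x)
    (hB3 : ∀ c : C, ∃ c' ∈ inv V C, normG V C c = p • c') :
    (inv (⊤ : Subgroup G) (HomM G X0 C)).map (HomM.pre j) = (normG G (HomM G X1 C)).range := by
  have := Fintype.ofFinite G
  have epre : ∀ (g : G) (a : HomM G X0 C), HomM.pre j (g • a) = g • HomM.pre j a := fun g a => by
    ext x
    show g • a (g⁻¹ • j x) = g • a (j (g⁻¹ • x))
    rw [ej]
  apply le_antisymm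
  · rintro _ ⟨χ, hχ, rfl⟩
    obtain ⟨ψ0, rfl⟩ := hX0.mem_range_norm hχ
    refine ⟨HomM.pre j ψ0, ?_⟩
    rw [normG_apply, normG_apply, map_sum]
    exact Finset.sum_congr rfl fun g _ => (epre g ψ0).symm
  · rintro _ ⟨ψ, rfl⟩
    obtain ⟨ξ, hξ, h⟩ := lemmaK_V p V j ej hj hp hV hB3 ψ
    obtain ⟨χ, hχ, h2⟩ := norm_trans V (HomM.pre j) epre ψ ξ hξ h
    exact ⟨χ, hχ, h2⟩

end K

end Fermat.Agent.S55Lib
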